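import Mathlib

/-!
# Laurent expansions at `i∞` of periodic holomorphic functions on the upper half plane

For `h > 0` a function `f : ℍ → ℂ` is *meromorphic at `i∞` of period `h`* (`IsMerInf h f`) if it is
holomorphic, `h`-periodic and `u ^ m * f` is bounded at `i∞` for some `m : ℕ`, where
`u = qPar h = exp (2 π i τ / h)`.  Its Laurent expansion `expandFun h f : LaurentSeries ℂ` is
`u⁻ᵐ` times the `q`-expansion (Mathlib `UpperHalfPlane.qExpansion h`) of `u ^ m * f`.
-/

set_option autoImplicit false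

noncomputable section

namespace Fermat.Agent.X0

open Function Complex Filter Topology
open UpperHalfPlane hiding I
open scoped Manifold Real

/-- The local parameter `u = exp (2 π i τ / h)` at `i∞`, as a function on `ℍ`. -/
def qPar (h : ℝ) : ℍ → ℂ := fun τ => Periodic.qParam h τ

theorem qPar_apply (h : ℝ) (τ : ℍ) : qPar h τ = Periodic.qParam h τ := rfl

theorem qPar_ne_zero (h : ℝ) (τ : ℍ) : qPar h τ ≠ 0 := Periodic.qParam_ne_zero _

theorem qPar_pow_ne_zero (h : ℝ) (m : ℕ) (τ : ℍ) : (qPar h ^ m) τ ≠ 0 := by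
  simpa using pow_ne_zero m (qPar_ne_zero h τ)

theorem mdiff_qPar (h : ℝ) : MDiff (qPar h) := by
  intro τ
  rw [UpperHalfPlane.mdifferentiableAt_iff]
  have : DifferentiableAt ℂ (Periodic.qParam h) (τ : ℂ) :=
    (Periodic.differentiable_qParam (h := h)) (τ : ℂ)
  refine this.congr_of_eventuallyEq ?_
  filter_upwards [isOpen_upperHalfPlaneSet.mem_nhds τ.2] with z hz
  simp [qPar, Function.comp, ofComplex_apply_of_im_pos hz]

theorem periodic_qPar {h : ℝ} (hh : h ≠ 0) : Periodic (qPar h ∘ ofComplex) h := by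
  intro z
  simp only [Function.comp_apply, qPar]
  by_cases hz : 0 < z.im
  · have hz' : 0 < (z + h).im := by simpa using hz
    rw [ofComplex_apply_of_im_pos hz, ofComplex_apply_of_im_pos hz']
    simp only [Periodic.qParam]
    have hc : (h : ℂ) ≠ 0 := by exact_mod_cast hh
    have : 2 * π * I * (z + h) / h = 2 * π * I * z / h + 2 * π * I := by
      field_simp
    simp [this, Complex.exp_add]
  · have hz' : ¬ 0 < (z + h).im := by simpa using hz
    rw [ofComplex_apply_of_im_nonpos (not_lt.mp hz), ofComplex_apply_of_im_nonpos (not_lt.mp hz')]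

/-- Holomorphic, `h`-periodic and bounded at `i∞`. -/
structure IsHolInf (h : ℝ) (g : ℍ → ℂ) : Prop where
  mdiff : MDiff g
  periodic : Periodic (g ∘ ofComplex) h
  bdd : IsBoundedAtImInfty g

namespace IsHolInf

variable {h : ℝ} {f g : ℍ → ℂ}

theorem analyticAt (hf : IsHolInf h f) (hh : 0 < h) : AnalyticAt ℂ (cuspFunction h f) 0 :=
  analyticAt_cuspFunction_zero hh hf.periodic hf.mdiff hf.bdd

theorem add (hf : IsHolInf h f) (hg : IsHolInf h g) : IsHolInf h (f + g) where
  mdiff := hf.mdiff.add hg.mdiff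
  periodic := by
    have : (f + g) ∘ ofComplex = f ∘ ofComplex + g ∘ ofComplex := rfl
    rw [this]; exact hf.periodic.add hg.periodic
  bdd := hf.bdd.add hg.bdd

theorem mul (hf : IsHolInf h f) (hg : IsHolInf h g) : IsHolInf h (f * g) where
  mdiff := hf.mdiff.mul hg.mdiff
  periodic := by
    have : (f * g) ∘ ofComplex = (f ∘ ofComplex) * (g ∘ ofComplex) := rfl
    rw [this]; exact hf.periodic.mul hg.periodic
  bdd := hf.bdd.mul hg.bdd

theorem neg (hf : IsHolInf h f) : IsHolInf h (-f) where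
  mdiff := hf.mdiff.neg
  periodic := by
    intro z
    simp only [Function.comp_apply, Pi.neg_apply]
    rw [show f (ofComplex (z + h)) = f (ofComplex z) from hf.periodic z]
  bdd := hf.bdd.neg_left

theorem const (h : ℝ) (c : ℂ) : IsHolInf h (fun _ => c) where
  mdiff := mdifferentiable_const
  periodic := fun _ => rfl
  bdd := Filter.const_boundedAtFilter _ c

theorem one (h : ℝ) : IsHolInf h (1 : ℍ → ℂ) := const h 1

theorem pow (hf : IsHolInf h f) (n : ℕ) : IsHolInf h (f ^ n) := by
  induction n with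
  | zero => simpa using one h
  | succ n ih => rw [pow_succ]; exact ih.mul hf

end IsHolInf

theorem isHolInf_qPar {h : ℝ} (hh : 0 < h) : IsHolInf h (qPar h) where
  mdiff := mdiff_qPar h
  periodic := periodic_qPar hh.ne'
  bdd := by
    have : Tendsto (qPar h) atImInfty (𝓝 0) := qParam_tendsto_atImInfty hh
    exact this.isBigO_one ℝ

/-- Uniqueness of `q`-expansion coefficients, for plain functions on `ℍ`. -/
theorem qExpansion_coeff_unique_fun {h : ℝ} {f : ℍ → ℂ} {c : ℕ → ℂ} (hh : 0 < h)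
    (hfanalytic : AnalyticAt ℂ (cuspFunction h f) 0)
    (hf : ∀ τ : ℍ, HasSum (fun m ↦ c m • Periodic.qParam h τ ^ m) (f τ)) (m : ℕ) :
    c m = (qExpansion h f).coeff m := by
  have h1 := (hasFPowerSeriesOnBall_cuspFunction hh hfanalytic hf).hasFPowerSeriesAt
  have h2 : HasFPowerSeriesAt (cuspFunction h f)
      (FormalMultilinearSeries.ofScalars ℂ fun m ↦ (qExpansion h f).coeff m) 0 := by
    simpa [qExpansion_coeff, div_eq_mul_inv, mul_comm] using hfanalytic.hasFPowerSeriesAt
  simpa [FormalMultilinearSeries.coeff_ofScalars] using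
    congr_arg (FormalMultilinearSeries.coeff · m) (h1.eq_formalMultilinearSeries h2)

/-- The `q`-expansion of the local parameter is `X`. -/
theorem qExpansion_qPar {h : ℝ} (hh : 0 < h) : qExpansion h (qPar h) = PowerSeries.X := by
  ext m
  have key := qExpansion_coeff_unique_fun (f := qPar h)
    (c := fun n => if n = 1 then (1 : ℂ) else 0) hh
    ((isHolInf_qPar hh).analyticAt hh) (fun τ => by
      have := hasSum_ite_eq (1 : ℕ) (Periodic.qParam h τ)
      rw [qPar_apply]
      convert this using 2 with n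
      by_cases hn : n = 1
      · simp [hn]
      · simp [hn]) m
  rw [← key, PowerSeries.coeff_X]

theorem qExpansion_qPar_pow {h : ℝ} (hh : 0 < h) (m : ℕ) :
    qExpansion h (qPar h ^ m) = PowerSeries.X ^ m := by
  induction m with
  | zero => simpa using qExpansion_one h
  | succ m ih =>
    rw [pow_succ, qExpansion_mul (((isHolInf_qPar hh).pow m).analyticAt hh)
      ((isHolInf_qPar hh).analyticAt hh), ih, qExpansion_qPar hh, pow_succ]

theorem qExpansion_qPar_pow_mul {h : ℝ} (hh : 0 < h) (m : ℕ) {g : ℍ → ℂ} (hg : IsHolInf h g) :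
    qExpansion h (qPar h ^ m * g) = PowerSeries.X ^ m * qExpansion h g := by
  rw [qExpansion_mul (((isHolInf_qPar hh).pow m).analyticAt hh) (hg.analyticAt hh),
    qExpansion_qPar_pow hh]

/-- Meromorphic at `i∞` of period `h`: holomorphic on `ℍ`, `h`-periodic, and `u ^ m * f` is bounded
at `i∞` for some `m`. -/
structure IsMerInf (h : ℝ) (f : ℍ → ℂ) : Prop where
  mdiff : MDiff f
  periodic : Periodic (f ∘ ofComplex) h
  bdd : ∃ m : ℕ, IsBoundedAtImInfty (qPar h ^ m * f)

/-- The Laurent series `u⁻ᵐ * P`. -/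
def shiftSeries (m : ℕ) (P : PowerSeries ℂ) : LaurentSeries ℂ :=
  HahnSeries.single (-(m : ℤ)) (1 : ℂ) * HahnSeries.ofPowerSeries ℤ ℂ P

theorem shiftSeries_add (m : ℕ) (P Q : PowerSeries ℂ) :
    shiftSeries m (P + Q) = shiftSeries m P + shiftSeries m Q := by
  simp [shiftSeries, mul_add]

theorem shiftSeries_mul (m n : ℕ) (P Q : PowerSeries ℂ) :
    shiftSeries (m + n) (P * Q) = shiftSeries m P * shiftSeries n Q := by
  simp only [shiftSeries, map_mul]
  have : HahnSeries.single (-((m + n : ℕ) : ℤ)) (1 : ℂ) =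
      HahnSeries.single (-(m : ℤ)) 1 * HahnSeries.single (-(n : ℤ)) 1 := by
    rw [HahnSeries.single_mul_single, one_mul, ← neg_add, Nat.cast_add]
  rw [this]; ring

theorem shiftSeries_X_pow_mul (m k : ℕ) (P : PowerSeries ℂ) :
    shiftSeries (m + k) (PowerSeries.X ^ k * P) = shiftSeries m P := by
  simp only [shiftSeries, map_mul, map_pow, HahnSeries.ofPowerSeries_X, HahnSeries.single_pow,
    one_pow]
  rw [← mul_assoc, HahnSeries.single_mul_single]
  congr 2
  · push_cast; simp
  · simp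

theorem shiftSeries_zero_left (P : PowerSeries ℂ) :
    shiftSeries 0 P = HahnSeries.ofPowerSeries ℤ ℂ P := by
  simp [shiftSeries]

theorem shiftSeries_injective (m : ℕ) : Function.Injective (shiftSeries m) := by
  intro P Q hPQ
  have h1 : HahnSeries.single (-(m : ℤ)) (1 : ℂ) ≠ 0 := by simp
  exact HahnSeries.ofPowerSeries_injective (mul_left_cancel₀ h1 hPQ)

theorem shiftSeries_coeff (m : ℕ) (P : PowerSeries ℂ) (k : ℤ) :
    (shiftSeries m P).coeff k = (HahnSeries.ofPowerSeries ℤ ℂ P).coeff (k + m) := by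
  rw [shiftSeries, HahnSeries.coeff_single_mul, one_mul, sub_neg_eq_add]

open Classical in
/-- The Laurent expansion at `i∞` in the local parameter `u = exp (2 π i τ / h)`. -/
def expandFun (h : ℝ) (f : ℍ → ℂ) : LaurentSeries ℂ :=
  if hb : ∃ m : ℕ, IsBoundedAtImInfty (qPar h ^ m * f) then
    shiftSeries (Nat.find hb) (qExpansion h (qPar h ^ Nat.find hb * f))
  else 0

namespace IsMerInf

variable {h : ℝ} {f g : ℍ → ℂ}

theorem isHolInf (hf : IsMerInf h f) (hh : 0 < h) {m : ℕ}
    (hm : IsBoundedAtImInfty (qPar h ^ m * f)) : IsHolInf h (qPar h ^ m * f) where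
  mdiff := ((isHolInf_qPar hh).pow m).mdiff.mul hf.mdiff
  periodic := by
    have : (qPar h ^ m * f) ∘ ofComplex = ((qPar h ^ m) ∘ ofComplex) * (f ∘ ofComplex) := rfl
    rw [this]; exact ((isHolInf_qPar hh).pow m).periodic.mul hf.periodic
  bdd := hm

theorem bdd_of_le (hh : 0 < h) {m n : ℕ} (hmn : m ≤ n)
    (hm : IsBoundedAtImInfty (qPar h ^ m * f)) : IsBoundedAtImInfty (qPar h ^ n * f) := by
  obtain ⟨k, rfl⟩ := Nat.exists_eq_add_of_le hmn
  have : qPar h ^ (m + k) * f = qPar h ^ k * (qPar h ^ m * f) := by rw [pow_add]; ring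
  rw [this]
  exact ((isHolInf_qPar hh).pow k).bdd.mul hm

theorem expandFun_eq (hf : IsMerInf h f) (hh : 0 < h) {m : ℕ}
    (hm : IsBoundedAtImInfty (qPar h ^ m * f)) :
    expandFun h f = shiftSeries m (qExpansion h (qPar h ^ m * f)) := by
  classical
  have hb : ∃ m : ℕ, IsBoundedAtImInfty (qPar h ^ m * f) := ⟨m, hm⟩
  rw [expandFun, dif_pos hb]
  obtain ⟨k, hk⟩ := Nat.exists_eq_add_of_le (Nat.find_min' hb hm)
  have h0 := hf.isHolInf hh (Nat.find_spec hb)
  have : qPar h ^ m * f = qPar h ^ k * (qPar h ^ Nat.find hb * f) := by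
    rw [hk, pow_add]; ring
  rw [this, qExpansion_qPar_pow_mul hh k h0]
  conv_rhs => rw [hk]
  rw [shiftSeries_X_pow_mul]

theorem of_isHolInf (hf : IsHolInf h f) : IsMerInf h f :=
  ⟨hf.mdiff, hf.periodic, 0, by simpa using hf.bdd⟩

theorem add (hh : 0 < h) (hf : IsMerInf h f) (hg : IsMerInf h g) : IsMerInf h (f + g) := by
  obtain ⟨m, hm⟩ := hf.bdd
  obtain ⟨n, hn⟩ := hg.bdd
  refine ⟨hf.mdiff.add hg.mdiff, ?_, max m n, ?_⟩
  · have : (f + g) ∘ ofComplex = f ∘ ofComplex + g ∘ ofComplex := rfl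
    rw [this]; exact hf.periodic.add hg.periodic
  · rw [mul_add]
    exact (bdd_of_le hh (le_max_left m n) hm).add (bdd_of_le hh (le_max_right m n) hn)

theorem mul (hf : IsMerInf h f) (hg : IsMerInf h g) : IsMerInf h (f * g) := by
  obtain ⟨m, hm⟩ := hf.bdd
  obtain ⟨n, hn⟩ := hg.bdd
  refine ⟨hf.mdiff.mul hg.mdiff, ?_, m + n, ?_⟩
  · have : (f * g) ∘ ofComplex = (f ∘ ofComplex) * (g ∘ ofComplex) := rfl
    rw [this]; exact hf.periodic.mul hg.periodic
  · have : qPar h ^ (m + n) * (f * g) = (qPar h ^ m * f) * (qPar h ^ n * g) := by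
      rw [pow_add]; ring
    rw [this]; exact hm.mul hn

theorem neg (hf : IsMerInf h f) : IsMerInf h (-f) := by
  obtain ⟨m, hm⟩ := hf.bdd
  refine ⟨hf.mdiff.neg, ?_, m, ?_⟩
  · intro z
    simp only [Function.comp_apply, Pi.neg_apply]
    rw [show f (ofComplex (z + h)) = f (ofComplex z) from hf.periodic z]
  · rw [mul_neg]; exact hm.neg_left

theorem const (h : ℝ) (c : ℂ) : IsMerInf h (fun _ => c) := of_isHolInf (IsHolInf.const h c)

theorem one (h : ℝ) : IsMerInf h (1 : ℍ → ℂ) := const h 1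

theorem zero (h : ℝ) : IsMerInf h (0 : ℍ → ℂ) := const h 0

theorem pow (hf : IsMerInf h f) (n : ℕ) : IsMerInf h (f ^ n) := by
  induction n with
  | zero => simpa using one h
  | succ n ih => rw [pow_succ]; exact ih.mul hf

end IsMerInf

section expandFun

variable {h : ℝ} {f g : ℍ → ℂ}

theorem expandFun_of_isHolInf (hh : 0 < h) (hf : IsHolInf h f) :
    expandFun h f = HahnSeries.ofPowerSeries ℤ ℂ (qExpansion h f) := by
  have hm : IsBoundedAtImInfty (qPar h ^ 0 * f) := by simpa using hf.bdd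
  rw [(IsMerInf.of_isHolInf hf).expandFun_eq hh hm, shiftSeries_zero_left]
  simp

theorem expandFun_add (hh : 0 < h) (hf : IsMerInf h f) (hg : IsMerInf h g) :
    expandFun h (f + g) = expandFun h f + expandFun h g := by
  obtain ⟨m, hm⟩ := hf.bdd
  obtain ⟨n, hn⟩ := hg.bdd
  have hm' := IsMerInf.bdd_of_le hh (le_max_left m n) hm
  have hn' := IsMerInf.bdd_of_le hh (le_max_right m n) hn
  have hfg : IsBoundedAtImInfty (qPar h ^ max m n * (f + g)) := by
    rw [mul_add]; exact hm'.add hn'
  rw [(hf.add hh hg).expandFun_eq hh hfg, hf.expandFun_eq hh hm', hg.expandFun_eq hh hn', mul_add,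
    qExpansion_add ((hf.isHolInf hh hm').analyticAt hh) ((hg.isHolInf hh hn').analyticAt hh),
    shiftSeries_add]

theorem expandFun_mul (hh : 0 < h) (hf : IsMerInf h f) (hg : IsMerInf h g) :
    expandFun h (f * g) = expandFun h f * expandFun h g := by
  obtain ⟨m, hm⟩ := hf.bdd
  obtain ⟨n, hn⟩ := hg.bdd
  have e : qPar h ^ (m + n) * (f * g) = (qPar h ^ m * f) * (qPar h ^ n * g) := by
    rw [pow_add]; ring
  have hfg : IsBoundedAtImInfty (qPar h ^ (m + n) * (f * g)) := by
    rw [e]; exact hm.mul hn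
  rw [(hf.mul hg).expandFun_eq hh hfg, hf.expandFun_eq hh hm, hg.expandFun_eq hh hn, e,
    qExpansion_mul ((hf.isHolInf hh hm).analyticAt hh) ((hg.isHolInf hh hn).analyticAt hh),
    shiftSeries_mul]

theorem expandFun_const (hh : 0 < h) (c : ℂ) :
    expandFun h (fun _ => c) = HahnSeries.C c := by
  rw [expandFun_of_isHolInf hh (IsHolInf.const h c)]
  have : (fun _ : ℍ => c) = c • (1 : ℍ → ℂ) := by ext; simp
  rw [this, qExpansion_smul (by simpa using (IsHolInf.one h).analyticAt hh), qExpansion_one]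
  rw [← HahnSeries.ofPowerSeries_C]
  congr 1
  ext n
  simp [PowerSeries.coeff_C, PowerSeries.coeff_one]

theorem expandFun_one (hh : 0 < h) : expandFun h (1 : ℍ → ℂ) = 1 := by
  show expandFun h (fun _ => (1 : ℂ)) = 1
  rw [expandFun_const hh 1, map_one]

theorem expandFun_zero (hh : 0 < h) : expandFun h (0 : ℍ → ℂ) = 0 := by
  show expandFun h (fun _ => (0 : ℂ)) = 0
  rw [expandFun_const hh 0, map_zero]

theorem expandFun_neg (hh : 0 < h) (hf : IsMerInf h f) : expandFun h (-f) = -expandFun h f := by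
  have h1 : (-f) = (fun _ => (-1 : ℂ)) * f := by ext; simp
  rw [h1, expandFun_mul hh (IsMerInf.const h (-1)) hf, expandFun_const hh, map_neg, map_one]
  ring

theorem expandFun_eq_zero_iff (hh : 0 < h) (hf : IsMerInf h f) : expandFun h f = 0 ↔ f = 0 := by
  obtain ⟨m, hm⟩ := hf.bdd
  have h0 := hf.isHolInf hh hm
  rw [hf.expandFun_eq hh hm]
  constructor
  · intro H
    have H' : shiftSeries m (qExpansion h (qPar h ^ m * f)) = shiftSeries m 0 := by
      rw [H]; simp [shiftSeries]
    have := (qExpansion_eq_zero_iff hh h0.periodic h0.mdiff h0.bdd).mp (shiftSeries_injective m H')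
    ext τ
    have := congrFun this τ
    simpa [qPar_ne_zero] using this
  · rintro rfl
    simp [qExpansion_zero, shiftSeries]

/-- **Uniqueness of the Laurent expansion**: if `u ^ m * f = ∑ c n * u ^ n` pointwise then the
expansion of `f` is `u⁻ᵐ * ∑ c n * X ^ n`. -/
theorem expandFun_eq_of_hasSum (hh : 0 < h) (hf : IsMerInf h f) (m : ℕ) (c : ℕ → ℂ)
    (hc : ∀ τ : ℍ, HasSum (fun n => c n • Periodic.qParam h τ ^ n) (qPar h τ ^ m * f τ)) :
    expandFun h f = shiftSeries m (PowerSeries.mk c) := by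
  have hm : IsBoundedAtImInfty (qPar h ^ m * f) :=
    isBoundedAtImInfty_of_hasSum_qExpansion hh (f := qPar h ^ m * f) (c := c) hc
  rw [hf.expandFun_eq hh hm]
  congr 1
  ext n
  rw [PowerSeries.coeff_mk]
  exact (qExpansion_coeff_unique_fun hh ((hf.isHolInf hh hm).analyticAt hh) hc n).symm

end expandFun

section bundled

/-- The subring of `ℍ → ℂ` of functions meromorphic at `i∞` of period `h`. -/
def merInfSubring (h : ℝ) (hh : 0 < h) : Subring (ℍ → ℂ) where
  carrier := {f | IsMerInf h f}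
  mul_mem' hf hg := hf.mul hg
  one_mem' := IsMerInf.one h
  add_mem' hf hg := hf.add hh hg
  zero_mem' := IsMerInf.zero h
  neg_mem' hf := hf.neg

theorem mem_merInfSubring {h : ℝ} {hh : 0 < h} {f : ℍ → ℂ} :
    f ∈ merInfSubring h hh ↔ IsMerInf h f := Iff.rfl

/-- The Laurent expansion at `i∞` as a ring homomorphism. -/
def expandHom (h : ℝ) (hh : 0 < h) : merInfSubring h hh →+* LaurentSeries ℂ where
  toFun f := expandFun h f.1
  map_one' := expandFun_one hh
  map_mul' f g := expandFun_mul hh f.2 g.2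
  map_zero' := expandFun_zero hh
  map_add' f g := expandFun_add hh f.2 g.2

@[simp] theorem expandHom_apply {h : ℝ} (hh : 0 < h) (f : merInfSubring h hh) :
    expandHom h hh f = expandFun h f.1 := rfl

theorem expandHom_injective {h : ℝ} (hh : 0 < h) : Function.Injective (expandHom h hh) := by
  rw [injective_iff_map_eq_zero]
  intro f hf
  exact Subtype.ext ((expandFun_eq_zero_iff hh f.2).mp hf)

end bundled

end Fermat.Agent.X0
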