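import Fermat.Agent.X0.Ana.QExp
import Fermat.Prelude.Def_ModularCurve_X0

/-!
# Laurent expansion of `τ ↦ f ((a τ + b) / d)`

If `f` is meromorphic at `i∞` of period `1` with expansion `∑ c_k q ^ k`, `σ : ℍ → ℍ` is the map
`τ ↦ (a τ + b) / d` and `e * d = N * a`, then `f ∘ σ` is meromorphic at `i∞` of period `N` with
expansion `∑ c_k ζ ^ k u ^ (e k)`, `ζ = exp (2 π i b / d)`, `u = exp (2 π i τ / N)`.
-/

set_option autoImplicit false

noncomputable section

namespace Fermat.Agent.X0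

open Function Complex Filter Topology
open UpperHalfPlane hiding I
open scoped Manifold Real

theorem ofPowerSeries_coeff_int (P : PowerSeries ℂ) (k : ℤ) :
    (HahnSeries.ofPowerSeries ℤ ℂ P).coeff k = if 0 ≤ k then PowerSeries.coeff k.toNat P else 0 := by
  split_ifs with hk
  · lift k to ℕ using hk
    rw [HahnSeries.ofPowerSeries_apply_coeff, Int.toNat_natCast]
  · exact ModularCurve.ofPowerSeries_coeff_of_neg _ (not_le.mp hk)

section subst

variable {f : ℍ → ℂ} {a d N e : ℕ} {b : ℤ} {σ : ℍ → ℍ}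

/-- The root of unity `exp (2 π i b / d)`. -/
def zetaOf (b : ℤ) (d : ℕ) : ℂ := Complex.exp (2 * π * I * b / d)

theorem zetaOf_ne_zero (b : ℤ) (d : ℕ) : zetaOf b d ≠ 0 := Complex.exp_ne_zero _

theorem qParam_comp_affine (hd : 0 < d) (hN : 0 < N) (he : e * d = N * a)
    (hσ : ∀ τ : ℍ, (σ τ : ℂ) = (a * τ + b) / d) (τ : ℍ) :
    Periodic.qParam 1 (σ τ) = zetaOf b d * Periodic.qParam N τ ^ e := by
  have hdc : (d : ℂ) ≠ 0 := by exact_mod_cast hd.ne'
  have hNc : (N : ℂ) ≠ 0 := by exact_mod_cast hN.ne'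
  have hec : (e : ℂ) * d = N * a := by exact_mod_cast he
  simp only [Periodic.qParam, zetaOf, hσ τ, ofReal_one, div_one, ofReal_natCast]
  rw [← Complex.exp_nat_mul, ← Complex.exp_add]
  congr 1
  field_simp
  linear_combination (-(τ : ℂ)) * hec

theorem sigma_eq_ofComplex (hσ : ∀ τ : ℍ, (σ τ : ℂ) = (a * τ + b) / d) (τ : ℍ) :
    σ τ = ofComplex ((a * (τ : ℂ) + b) / d) := by
  have him : 0 < ((a * (τ : ℂ) + b) / d).im := by rw [← hσ τ]; exact (σ τ).2
  ext
  rw [ofComplex_apply_of_im_pos him, hσ τ]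

theorem mdiff_comp_affine (hf : MDiff f) (hσ : ∀ τ : ℍ, (σ τ : ℂ) = (a * τ + b) / d) :
    MDiff (f ∘ σ) := by
  intro τ
  rw [UpperHalfPlane.mdifferentiableAt_iff]
  have h1 : DifferentiableAt ℂ (f ∘ ofComplex) ((a * (τ : ℂ) + b) / d) := by
    have := UpperHalfPlane.mdifferentiableAt_iff.mp (hf (σ τ))
    rwa [hσ τ] at this
  have h2 : DifferentiableAt ℂ (fun z : ℂ => (a * z + b) / d) (τ : ℂ) := by fun_prop
  have h3 := h1.comp (τ : ℂ) h2
  refine h3.congr_of_eventuallyEq ?_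
  filter_upwards [isOpen_upperHalfPlaneSet.mem_nhds τ.2] with z hz
  simp only [Function.comp_apply]
  rw [ofComplex_apply_of_im_pos hz, sigma_eq_ofComplex hσ]

theorem periodic_comp_affine (hf : Periodic (f ∘ ofComplex) (1 : ℝ)) (hd : 0 < d)
    (he : e * d = N * a) (hσ : ∀ τ : ℍ, (σ τ : ℂ) = (a * τ + b) / d) :
    Periodic ((f ∘ σ) ∘ ofComplex) (N : ℝ) := by
  intro z
  simp only [Function.comp_apply]
  have hdc : (d : ℂ) ≠ 0 := by exact_mod_cast hd.ne'
  have hec : (e : ℂ) * d = N * a := by exact_mod_cast he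
  by_cases hz : 0 < z.im
  · have hz' : 0 < (z + (N : ℝ)).im := by simpa using hz
    rw [ofComplex_apply_of_im_pos hz, ofComplex_apply_of_im_pos hz', sigma_eq_ofComplex hσ,
      sigma_eq_ofComplex hσ]
    have hper : Periodic (f ∘ ofComplex) ((e : ℕ) * ((1 : ℝ) : ℂ)) := hf.nat_mul e
    have := hper ((a * z + b) / d)
    simp only [Function.comp_apply] at this
    rw [← this]
    congr 2
    simp only [ofReal_natCast, ofReal_one, mul_one]
    field_simp
    linear_combination (-1 : ℂ) * hec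
  · have hz' : ¬ 0 < (z + (N : ℝ)).im := by simpa using hz
    rw [ofComplex_apply_of_im_nonpos (not_lt.mp hz), ofComplex_apply_of_im_nonpos (not_lt.mp hz')]

/-- Coefficients of the expansion of `f ∘ σ`. -/
def substCoeff (ζ : ℂ) (e m : ℕ) (c : ℕ → ℂ) (k : ℕ) : ℂ :=
  if e ∣ k then ζ ^ (-(m : ℤ)) * c (k / e) * ζ ^ (k / e) else 0

theorem hasSum_comp_affine (hf : IsMerInf 1 f) (hd : 0 < d) (hN : 0 < N) (he : e * d = N * a)
    (he0 : 0 < e) (hσ : ∀ τ : ℍ, (σ τ : ℂ) = (a * τ + b) / d) {m : ℕ}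
    (hm : IsBoundedAtImInfty (qPar 1 ^ m * f)) (τ : ℍ) :
    HasSum (fun k => substCoeff (zetaOf b d) e m
        (fun n => (qExpansion 1 (qPar 1 ^ m * f)).coeff n) k • Periodic.qParam N τ ^ k)
      (qPar N τ ^ (e * m) * (f ∘ σ) τ) := by
  set ζ := zetaOf b d with hζ
  set v := Periodic.qParam N τ with hv
  set c : ℕ → ℂ := fun n => (qExpansion 1 (qPar 1 ^ m * f)).coeff n with hc
  have hζ0 : ζ ≠ 0 := zetaOf_ne_zero b d
  have hg := hf.isHolInf one_pos hm
  have h1 := hasSum_qExpansion one_pos hg.periodic hg.mdiff hg.bdd (σ τ)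
  have hq : Periodic.qParam 1 (σ τ) = ζ * v ^ e := qParam_comp_affine hd hN he hσ τ
  simp only [Pi.mul_apply, Pi.pow_apply, qPar_apply, hq] at h1
  have h2 := h1.mul_left (ζ ^ (-(m : ℤ)))
  have hval : ζ ^ (-(m : ℤ)) * ((ζ * v ^ e) ^ m * f (σ τ)) = qPar N τ ^ (e * m) * (f ∘ σ) τ := by
    rw [mul_pow, zpow_neg, zpow_natCast, qPar_apply, Function.comp_apply, ← pow_mul, ← hv]
    field_simp
  rw [hval] at h2
  have hinj : Function.Injective (fun n : ℕ => e * n) := fun x y hxy =>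
    Nat.eq_of_mul_eq_mul_left he0 hxy
  refine (hinj.hasSum_iff ?_).mp ?_
  · intro k hk
    have : ¬ e ∣ k := fun ⟨n, hn⟩ => hk ⟨n, hn.symm⟩
    simp [substCoeff, this]
  · have h3 : ((fun k => substCoeff ζ e m c k • v ^ k) ∘ fun n : ℕ => e * n) =
        fun i => ζ ^ (-(m : ℤ)) * (PowerSeries.coeff i) (qExpansion 1 (qPar 1 ^ m * f)) •
          (ζ * v ^ e) ^ i := by
      funext n
      simp only [Function.comp_apply, substCoeff, dvd_mul_right, if_true,
        Nat.mul_div_cancel_left n he0, smul_eq_mul, hc]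
      rw [mul_pow, pow_mul]
      ring
    rw [h3]
    exact h2

/-- **Expansion of `f ∘ σ`** where `σ τ = (a τ + b) / d`, for `f` meromorphic at `i∞` of period `1`,
and `e * d = N * a`: `f ∘ σ` is meromorphic at `i∞` of period `N`, its coefficient of index `e * k`
is `ζ ^ k` times the coefficient of index `k` of `f`, and the other coefficients vanish. -/
theorem expandFun_comp_affine (hf : IsMerInf 1 f) (hd : 0 < d) (hN : 0 < N) (he : e * d = N * a)
    (he0 : 0 < e) (hσ : ∀ τ : ℍ, (σ τ : ℂ) = (a * τ + b) / d) :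
    IsMerInf N (f ∘ σ) ∧
    (∀ k : ℤ, (expandFun N (f ∘ σ)).coeff (e * k) = zetaOf b d ^ k * (expandFun 1 f).coeff k) ∧
    (∀ j : ℤ, ¬ (e : ℤ) ∣ j → (expandFun N (f ∘ σ)).coeff j = 0) := by
  have hN' : (0 : ℝ) < N := by exact_mod_cast hN
  obtain ⟨m, hm⟩ := hf.bdd
  set ζ := zetaOf b d with hζ
  have hζ0 : ζ ≠ 0 := zetaOf_ne_zero b d
  set c : ℕ → ℂ := fun n => (qExpansion 1 (qPar 1 ^ m * f)).coeff n with hc
  have hsum := fun τ => hasSum_comp_affine hf hd hN he he0 hσ hm τ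
  have hmer : IsMerInf N (f ∘ σ) :=
    ⟨mdiff_comp_affine hf.mdiff hσ, periodic_comp_affine hf.periodic hd he hσ, e * m,
      isBoundedAtImInfty_of_hasSum_qExpansion hN' (f := qPar N ^ (e * m) * (f ∘ σ)) hsum⟩
  have hexp : expandFun N (f ∘ σ) = shiftSeries (e * m) (PowerSeries.mk (substCoeff ζ e m c)) :=
    expandFun_eq_of_hasSum hN' hmer (e * m) _ hsum
  have hexp1 : expandFun 1 f = shiftSeries m (qExpansion 1 (qPar 1 ^ m * f)) :=
    hf.expandFun_eq one_pos hm
  refine ⟨hmer, ?_, ?_⟩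
  · intro k
    rw [hexp, hexp1, shiftSeries_coeff, shiftSeries_coeff, ofPowerSeries_coeff_int,
      ofPowerSeries_coeff_int]
    have he0' : (0 : ℤ) < e := by exact_mod_cast he0
    have hiff : (0 : ℤ) ≤ e * k + ((e * m : ℕ) : ℤ) ↔ 0 ≤ k + m := by
      push_cast
      rw [← mul_add]
      exact ⟨fun h => nonneg_of_mul_nonneg_right h he0', fun h => mul_nonneg he0'.le h⟩
    by_cases hk : 0 ≤ k + m
    · rw [if_pos (hiff.mpr hk), if_pos hk, PowerSeries.coeff_mk]
      obtain ⟨n, hn⟩ := Int.eq_ofNat_of_zero_le hk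
      have h1 : ((e : ℤ) * k + ((e * m : ℕ) : ℤ)).toNat = e * n := by
        have : (e : ℤ) * k + ((e * m : ℕ) : ℤ) = ((e * n : ℕ) : ℤ) := by
          push_cast; rw [← mul_add, hn]
        rw [this, Int.toNat_natCast]
      have h2 : (k + m).toNat = n := by rw [hn, Int.toNat_natCast]
      rw [h1, h2]
      simp only [substCoeff, dvd_mul_right, if_true, Nat.mul_div_cancel_left n he0, hc]
      have hk' : k = (n : ℤ) - m := by omega
      rw [hk', zpow_sub₀ hζ0, zpow_neg]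
      simp only [zpow_natCast]
      field_simp
    · rw [if_neg (fun h => hk (hiff.mp h)), if_neg hk, mul_zero]
  · intro j hj
    rw [hexp, shiftSeries_coeff, ofPowerSeries_coeff_int]
    split_ifs with h0
    · rw [PowerSeries.coeff_mk, substCoeff, if_neg]
      intro hdiv
      apply hj
      have h3 : ((e : ℕ) : ℤ) ∣ ((j + ((e * m : ℕ) : ℤ)).toNat : ℤ) := by exact_mod_cast hdiv
      rw [Int.toNat_of_nonneg h0] at h3
      have h4 : (e : ℤ) ∣ ((e * m : ℕ) : ℤ) := ⟨m, by push_cast; ring⟩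
      exact (Int.dvd_add_left h4).mp h3
    · rfl

end subst

section twist

/-- Coefficientwise twist of a Laurent series: `∑ c_k X ^ k ↦ ∑ ζ ^ k c_k X ^ k`. -/
def twistSeries (ζ : ℂ) (F : LaurentSeries ℂ) : LaurentSeries ℂ :=
  ⟨fun k => ζ ^ k * F.coeff k, F.isPWO_support.mono fun k hk => by
    simp only [Function.mem_support, ne_eq, mul_eq_zero, not_or] at hk
    exact hk.2⟩

@[simp] theorem twistSeries_coeff (ζ : ℂ) (F : LaurentSeries ℂ) (k : ℤ) :
    (twistSeries ζ F).coeff k = ζ ^ k * F.coeff k := rfl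

variable {f : ℍ → ℂ} {a d N e : ℕ} {b : ℤ} {σ : ℍ → ℍ}

/-- `expandFun_comp_affine` in terms of the Prelude's `qExpand` and `twistSeries`. -/
theorem expandFun_comp_affine_eq [NeZero e] (hf : IsMerInf 1 f) (hd : 0 < d) (hN : 0 < N)
    (he : e * d = N * a) (hσ : ∀ τ : ℍ, (σ τ : ℂ) = (a * τ + b) / d) :
    expandFun N (f ∘ σ) =
      ModularCurve.qExpand ℂ e (twistSeries (zetaOf b d) (expandFun 1 f)) := by
  have he0 : 0 < e := Nat.pos_of_ne_zero (NeZero.ne e)
  obtain ⟨-, h1, h2⟩ := expandFun_comp_affine hf hd hN he he0 hσ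
  ext j
  by_cases hj : (e : ℤ) ∣ j
  · obtain ⟨k, rfl⟩ := hj
    rw [h1, ModularCurve.qExpand_coeff_mul, twistSeries_coeff]
  · rw [h2 j hj, ModularCurve.qExpand_coeff_of_not_dvd e _ hj]

end twist

end Fermat.Agent.X0
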