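import Mathlib
import Fermat.Prelude.Def_ModularCurve_X0
import Fermat.Agent.X0.Ana.QExp

/-!
# The Taylor series of the analytic Euler product is the formal Euler product

`∏' n, (1 - q ^ (n + 1))` (analytic, on the unit disc) has Taylor coefficients at `0` equal to the
coefficients of the formal infinite product `ModularCurve.etaProd : PowerSeries ℤ`.
-/

set_option autoImplicit false

noncomputable section

namespace Fermat.Agent.X0

open Filter Topology Complex Polynomial

/-- Locally uniform limits of holomorphic functions: all iterated derivatives converge locally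
uniformly. -/
theorem tendstoLocallyUniformlyOn_iteratedDeriv {ι : Type*} {φ : Filter ι} [φ.NeBot] {U : Set ℂ}
    (hU : IsOpen U) {F : ι → ℂ → ℂ} {f : ℂ → ℂ} (hf : TendstoLocallyUniformlyOn F f φ U)
    (hF : ∀ᶠ i in φ, DifferentiableOn ℂ (F i) U) (m : ℕ) :
    TendstoLocallyUniformlyOn (fun i => iteratedDeriv m (F i)) (iteratedDeriv m f) φ U ∧
      ∀ᶠ i in φ, DifferentiableOn ℂ (iteratedDeriv m (F i)) U := by
  induction m with
  | zero => simpa [iteratedDeriv_zero] using And.intro hf hF
  | succ m ih =>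
    obtain ⟨h1, h2⟩ := ih
    constructor
    · have := h1.deriv h2 hU
      simpa only [iteratedDeriv_succ, Function.comp_def] using this
    · filter_upwards [h2] with i hi
      rw [iteratedDeriv_succ]
      exact hi.deriv hU

theorem tendsto_iteratedDeriv_of_tendstoLocallyUniformlyOn {ι : Type*} {φ : Filter ι} [φ.NeBot]
    {U : Set ℂ} (hU : IsOpen U) {F : ι → ℂ → ℂ} {f : ℂ → ℂ}
    (hf : TendstoLocallyUniformlyOn F f φ U) (hF : ∀ᶠ i in φ, DifferentiableOn ℂ (F i) U)
    (m : ℕ) {z : ℂ} (hz : z ∈ U) :
    Tendsto (fun i => iteratedDeriv m (F i) z) φ (𝓝 (iteratedDeriv m f z)) :=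
  (tendstoLocallyUniformlyOn_iteratedDeriv hU hf hF m).1.tendsto_at hz

/-- Iterated derivatives of a polynomial function. -/
theorem iteratedDeriv_polynomial_eval (p : ℂ[X]) (m : ℕ) :
    iteratedDeriv m (fun x => p.eval x) = fun x => (derivative^[m] p).eval x := by
  induction m generalizing p with
  | zero => simp [iteratedDeriv_zero]
  | succ m ih =>
    rw [iteratedDeriv_succ, ih]
    funext x
    rw [Polynomial.deriv, Function.iterate_succ', Function.comp_apply]

theorem iteratedDeriv_polynomial_eval_zero (p : ℂ[X]) (m : ℕ) :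
    iteratedDeriv m (fun x => p.eval x) 0 = (m.factorial : ℂ) * p.coeff m := by
  rw [iteratedDeriv_polynomial_eval]
  show (derivative^[m] p).eval 0 = _
  rw [← coeff_zero_eq_eval_zero, coeff_iterate_derivative, zero_add, Nat.descFactorial_self,
    nsmul_eq_mul]

open scoped PowerSeries.WithPiTopology in
/-- Coefficients of the finite formal products converge to those of the formal Euler product. -/
theorem tendsto_coeff_finset_prod_etaProd (m : ℕ) :
    Tendsto (fun s : Finset ℕ =>
        PowerSeries.coeff m (∏ i ∈ s, ((1 : PowerSeries ℤ) - PowerSeries.X ^ (i + 1))))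
      atTop (𝓝 (PowerSeries.coeff m ModularCurve.etaProd)) := by
  have h := (PowerSeries.WithPiTopology.multipliable_one_sub_X_pow ℤ).hasProd
  exact ((PowerSeries.WithPiTopology.continuous_coeff ℤ m).tendsto _).comp h

/-- The Taylor coefficients at `0` of the analytic Euler product `∏' n, (1 - q ^ (n + 1))` are the
coefficients of the formal Euler product. -/
theorem iteratedDeriv_tprod_one_sub_pow_zero (m : ℕ) :
    iteratedDeriv m (fun q : ℂ => ∏' n : ℕ, (1 - q ^ (n + 1))) 0 =
      (m.factorial : ℂ) * ((PowerSeries.coeff m ModularCurve.etaProd : ℤ) : ℂ) := by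
  -- analytic side
  have hloc := ModularForm.multipliableLocallyUniformlyOn_one_sub_pow.hasProdLocallyUniformlyOn
  rw [hasProdLocallyUniformlyOn_iff_tendstoLocallyUniformlyOn] at hloc
  let pZ : Finset ℕ → ℤ[X] := fun s => ∏ i ∈ s, (1 - X ^ (i + 1))
  have hF : ∀ s : Finset ℕ, (fun q : ℂ => ∏ i ∈ s, (1 - q ^ (i + 1))) =
      fun q => ((pZ s).map (Int.castRingHom ℂ)).eval q := by
    intro s
    funext q
    simp [pZ, Polynomial.map_prod, eval_prod]
  have hdiff : ∀ᶠ s : Finset ℕ in atTop,
      DifferentiableOn ℂ (fun q : ℂ => ∏ i ∈ s, (1 - q ^ (i + 1))) (Metric.ball 0 1) := by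
    refine Eventually.of_forall fun s => ?_
    rw [hF s]
    exact (Polynomial.differentiable _).differentiableOn
  have h1 := tendsto_iteratedDeriv_of_tendstoLocallyUniformlyOn Metric.isOpen_ball hloc hdiff m
    (Metric.mem_ball_self one_pos)
  -- formal side
  have h2 : Tendsto (fun s : Finset ℕ => (m.factorial : ℂ) *
      ((PowerSeries.coeff m (∏ i ∈ s, ((1 : PowerSeries ℤ) - PowerSeries.X ^ (i + 1))) : ℤ) : ℂ))
      atTop (𝓝 ((m.factorial : ℂ) * ((PowerSeries.coeff m ModularCurve.etaProd : ℤ) : ℂ))) := by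
    refine Tendsto.const_mul _ ?_
    exact ((continuous_of_discreteTopology (f := fun n : ℤ => (n : ℂ))).tendsto _).comp
      (tendsto_coeff_finset_prod_etaProd m)
  refine tendsto_nhds_unique (h1.congr fun s => ?_) h2
  show iteratedDeriv m (fun q : ℂ => ∏ i ∈ s, (1 - q ^ (i + 1))) 0 = _
  rw [hF s, iteratedDeriv_polynomial_eval_zero, coeff_map]
  congr 2
  have : ((pZ s : ℤ[X]) : PowerSeries ℤ) =
      ∏ i ∈ s, ((1 : PowerSeries ℤ) - PowerSeries.X ^ (i + 1)) := by
    simp only [pZ]
    rw [← Polynomial.coeToPowerSeries.ringHom_apply, map_prod]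
    refine Finset.prod_congr rfl fun i _ => ?_
    simp
  rw [← this, Polynomial.coeff_coe]
  rfl

section etaFun

open UpperHalfPlane hiding I
open Function ModularForm
open scoped Manifold

/-- The Euler product `∏ (1 - q ^ (n + 1))`, `q = exp (2 π i τ)`, as a function on `ℍ`. -/
def etaFun : ℍ → ℂ := fun τ => ∏' n : ℕ, (1 - Periodic.qParam 1 τ ^ (n + 1))

theorem tendsto_tprod_one_sub_pow_nhds_zero :
    Tendsto (fun q : ℂ => ∏' n : ℕ, (1 - q ^ (n + 1))) (𝓝 0) (𝓝 1) := by
  have hc : ContinuousAt (fun q : ℂ => ∏' n : ℕ, (1 - q ^ (n + 1))) 0 :=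
    (differentiableOn_tprod_one_sub_pow.differentiableAt
      (Metric.isOpen_ball.mem_nhds (Metric.mem_ball_self one_pos))).continuousAt
  have h0 : (∏' n : ℕ, (1 - (0 : ℂ) ^ (n + 1))) = 1 := by simp
  simpa [ContinuousAt, h0] using hc

theorem tendsto_etaFun : Tendsto etaFun atImInfty (𝓝 1) :=
  tendsto_tprod_one_sub_pow_nhds_zero.comp (qParam_tendsto_atImInfty one_pos)

theorem isHolInf_etaFun : IsHolInf 1 etaFun where
  mdiff := by
    intro τ
    rw [UpperHalfPlane.mdifferentiableAt_iff]
    refine (differentiableAt_eta_tprod τ.2).congr_of_eventuallyEq ?_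
    filter_upwards [isOpen_upperHalfPlaneSet.mem_nhds τ.2] with z hz
    simp [etaFun, Function.comp, ofComplex_apply_of_im_pos hz, eta_q]
  periodic := by
    intro z
    simp only [Function.comp_apply, etaFun]
    have key : ∀ w : ℍ, Periodic.qParam 1 (w : ℂ) = qPar 1 w := fun w => rfl
    simp only [key]
    congr 1
    funext n
    have := periodic_qPar (h := 1) one_ne_zero z
    simp only [Function.comp_apply] at this
    rw [this]
  bdd := tendsto_etaFun.isBigO_one ℝ

theorem cuspFunction_etaFun_eqOn : Set.EqOn (cuspFunction 1 etaFun)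
    (fun q => ∏' n : ℕ, (1 - q ^ (n + 1))) (Metric.ball 0 1) := by
  intro q hq
  by_cases hq0 : q = 0
  · subst hq0
    rw [cuspFunction_apply_zero one_pos (isHolInf_etaFun.analyticAt one_pos)
      isHolInf_etaFun.periodic, valueAtInfty, tendsto_etaFun.limUnder_eq]
    simp
  · have him := Periodic.im_invQParam_pos_of_norm_lt_one one_pos
      (by simpa [dist_zero_right] using hq) hq0
    simp [cuspFunction, Periodic.cuspFunction_eq_of_nonzero 1 _ hq0,
      ofComplex_apply_of_im_pos him, etaFun, Periodic.qParam_right_inv one_ne_zero hq0]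

/-- The `q`-expansion of the analytic Euler product is the formal Euler product. -/
theorem qExpansion_etaFun :
    qExpansion 1 etaFun = ModularCurve.etaProd.map (Int.castRingHom ℂ) := by
  ext m
  rw [qExpansion_coeff, PowerSeries.coeff_map]
  have h1 : iteratedDeriv m (cuspFunction 1 etaFun) 0 =
      iteratedDeriv m (fun q : ℂ => ∏' n : ℕ, (1 - q ^ (n + 1))) 0 := by
    apply Filter.EventuallyEq.iteratedDeriv_eq
    exact cuspFunction_etaFun_eqOn.eventuallyEq_of_mem (Metric.ball_mem_nhds 0 one_pos)
  rw [h1, iteratedDeriv_tprod_one_sub_pow_zero, ← mul_assoc,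
    inv_mul_cancel₀ (by exact_mod_cast m.factorial_ne_zero), one_mul]
  rfl

theorem discriminant_eq_qPar_mul_etaFun_pow :
    (ModularForm.discriminant : ℍ → ℂ) = qPar 1 * etaFun ^ 24 := by
  funext τ
  rw [discriminant_eq_q_prod]
  simp only [Pi.mul_apply, Pi.pow_apply, qPar_apply, etaFun]
  congr 1
  have hq : ‖Periodic.qParam 1 (τ : ℂ)‖ < 1 := Periodic.norm_qParam_lt_one one_pos τ.2
  exact (multipliable_one_sub_pow hq).tprod_pow 24

/-- The `q`-expansion of `Δ` is `X * ∏ (1 - X ^ (n + 1)) ^ 24` (formal product). -/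
theorem qExpansion_discriminant :
    qExpansion 1 (ModularForm.discriminant : ℍ → ℂ) =
      PowerSeries.X * ModularCurve.dedekindEtaUnit.map (Int.castRingHom ℂ) := by
  rw [discriminant_eq_qPar_mul_etaFun_pow,
    qExpansion_mul ((isHolInf_qPar one_pos).analyticAt one_pos)
      ((isHolInf_etaFun.pow 24).analyticAt one_pos), qExpansion_qPar one_pos]
  congr 1
  have : ∀ n : ℕ, qExpansion 1 (etaFun ^ n) = (qExpansion 1 etaFun) ^ n := by
    intro n
    induction n with
    | zero => simpa using qExpansion_one 1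
    | succ n ih =>
      rw [pow_succ, qExpansion_mul ((isHolInf_etaFun.pow n).analyticAt one_pos)
        (isHolInf_etaFun.analyticAt one_pos), ih, pow_succ]
  rw [this, qExpansion_etaFun, ModularCurve.dedekindEtaUnit, map_pow]

end etaFun

end Fermat.Agent.X0
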