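import Mathlib

/-!
# The modular `j`-function on the upper half plane (package `Ana2` of the `X0(N)` blueprint)

`jFun = E₄³ / Δ`, its `SL(2, ℤ)`-invariance, Ramanujan's identities for `D E₄`, `D E₆`, `D Δ`,
the formula `D j = - E₄² E₆ / Δ`, surjectivity of `j` and the orders of vanishing of `j - j τ₀`.
-/

set_option autoImplicit false

open UpperHalfPlane ModularForm EisensteinSeries MatrixGroups Complex Filter Function Derivative
open scoped Real Topology Manifold

namespace Fermat.Agent.X0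

local notation "𝕢" => Periodic.qParam
local notation "Dn" => Derivative.normalizedDerivOfComplex

/-! ### Generalities: values at `i∞` and the derivative `D` -/

/-- The transformation law of a level one modular form under `SL(2, ℤ)`. -/
theorem modForm_smul_SL {F : Type*} [FunLike F ℍ ℂ] {k : ℤ} [SlashInvariantFormClass F 𝒮ℒ k]
    (f : F) (γ : SL(2, ℤ)) (z : ℍ) :
    f (γ • z) = denom γ z ^ k * f z := by
  have h : ((γ : SL(2, ℤ)) : GL (Fin 2) ℝ) ∈ 𝒮ℒ := ⟨γ, rfl⟩
  exact SlashInvariantForm.slash_action_eqn'' f h z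

/-- A holomorphic, `1`-periodic function bounded at `i∞` tends to the value of its cusp function
at `0`. -/
theorem tendsto_atImInfty_cuspFunction {f : ℍ → ℂ} (hfper : Periodic (f ∘ ofComplex) 1)
    (hfhol : MDiff f) (hfbdd : IsBoundedAtImInfty f) :
    Tendsto f atImInfty (𝓝 (cuspFunction 1 f 0)) := by
  have han := analyticAt_cuspFunction_zero one_pos hfper hfhol hfbdd
  have : (cuspFunction 1 f ∘ fun τ : ℍ ↦ 𝕢 1 τ : ℍ → ℂ) = f := by
    funext τ
    simpa using eq_cuspFunction τ one_ne_zero hfper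
  simpa [this] using han.continuousAt.tendsto.comp (qParam_tendsto_atImInfty one_pos)

/-- `D f = q · F'(q)` where `F` is the cusp function of `f`. -/
theorem D_eq_qParam_mul_deriv_cuspFunction {f : ℍ → ℂ} (hfper : Periodic (f ∘ ofComplex) 1)
    (hfhol : MDiff f) (hfbdd : IsBoundedAtImInfty f) (τ : ℍ) :
    Dn f τ = 𝕢 1 τ * deriv (cuspFunction 1 f) (𝕢 1 τ) := by
  have hfun : f ∘ ofComplex = cuspFunction 1 f ∘ 𝕢 1 := by
    funext w
    exact (Periodic.eq_cuspFunction one_ne_zero hfper w).symm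
  have hq : ‖𝕢 1 (τ : ℂ)‖ < 1 := Periodic.norm_qParam_lt_one one_pos τ.im_pos
  have hF : DifferentiableAt ℂ (cuspFunction 1 f) (𝕢 1 (τ : ℂ)) :=
    differentiableAt_cuspFunction one_pos hfper hfhol hfbdd hq
  have hqd : HasDerivAt (𝕢 1) (2 * π * Complex.I * 𝕢 1 (τ : ℂ)) (τ : ℂ) := by
    have h1 : HasDerivAt (fun z : ℂ ↦ 2 * π * Complex.I * z / (1 : ℝ)) (2 * π * Complex.I) (τ : ℂ) := by
      simpa using ((hasDerivAt_id (τ : ℂ)).const_mul (2 * π * Complex.I)).div_const ((1 : ℝ) : ℂ)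
    have h2 := h1.cexp
    have h3 : (𝕢 1) = fun z : ℂ ↦ cexp (2 * π * Complex.I * z / (1 : ℝ)) := by
      funext z; rfl
    rw [h3]
    have h4 : 2 * π * Complex.I * (fun z : ℂ ↦ cexp (2 * π * Complex.I * z / (1 : ℝ))) (τ : ℂ)
        = cexp (2 * π * Complex.I * (τ : ℂ) / (1 : ℝ)) * (2 * π * Complex.I) := by
      simp only; ring
    rw [h4]
    exact h2
  have hcomp := hF.hasDerivAt.comp (τ : ℂ) hqd
  rw [Derivative.normalizedDerivOfComplex, hfun, hcomp.deriv]
  have h2pi : (2 * π * Complex.I : ℂ) ≠ 0 := by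
    simp [Real.pi_ne_zero]
  field_simp

/-- `D f` vanishes at `i∞` for a holomorphic `1`-periodic function bounded at `i∞`. -/
theorem isZeroAtImInfty_D {f : ℍ → ℂ} (hfper : Periodic (f ∘ ofComplex) 1)
    (hfhol : MDiff f) (hfbdd : IsBoundedAtImInfty f) : IsZeroAtImInfty (Dn f) := by
  have han := analyticAt_cuspFunction_zero one_pos hfper hfhol hfbdd
  have hcont : ContinuousAt (fun q : ℂ ↦ q * deriv (cuspFunction 1 f) q) 0 :=
    continuousAt_id.mul han.deriv.continuousAt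
  have h0 : Tendsto (fun q : ℂ ↦ q * deriv (cuspFunction 1 f) q) (𝓝 0) (𝓝 0) := by
    simpa using hcont.tendsto
  have h1 := h0.comp (qParam_tendsto_atImInfty one_pos)
  refine h1.congr fun τ ↦ ?_
  simp only [Function.comp_apply]
  exact (D_eq_qParam_mul_deriv_cuspFunction hfper hfhol hfbdd τ).symm

/-- Periodicity of a level one modular form. -/
theorem periodic_modForm {k : ℤ} (f : ModularForm 𝒮ℒ k) : Periodic ((f : ℍ → ℂ) ∘ ofComplex) 1 := by
  have := SlashInvariantFormClass.periodic_comp_ofComplex (h := 1) f one_mem_strictPeriods_SL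
  simpa using this

theorem tendsto_modForm {k : ℤ} (f : ModularForm 𝒮ℒ k) :
    Tendsto f atImInfty (𝓝 ((qExpansion 1 f).coeff 0)) := by
  have hbdd : IsBoundedAtImInfty (f : ℍ → ℂ) := by
    have : Fact (IsCusp OnePoint.infty 𝒮ℒ) :=
      ⟨(𝒮ℒ).isCusp_of_mem_strictPeriods one_pos one_mem_strictPeriods_SL⟩
    exact ModularFormClass.bdd_at_infty f
  have h := tendsto_atImInfty_cuspFunction (periodic_modForm f) (ModularFormClass.holo f) hbdd
  have h2 : (qExpansion 1 f).coeff 0 = cuspFunction 1 f 0 := by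
    simp [qExpansion_coeff]
  rwa [h2]

/-! ### `E₂` at `i∞` -/

theorem E2_periodic : Periodic (E2 ∘ ofComplex) 1 := by
  intro w
  by_cases hw : 0 < im w
  · have hw1 : 0 < im (w + 1) := by simpa using hw
    simp only [comp_apply, ofComplex_apply_of_im_pos hw1, ofComplex_apply_of_im_pos hw]
    have h1 := hasSum_qExpansion_E2 (z := ⟨w + 1, hw1⟩)
    have h2 := hasSum_qExpansion_E2 (z := ⟨w, hw⟩)
    have hexp : cexp (2 * π * Complex.I * ((⟨w + 1, hw1⟩ : ℍ) : ℂ))
        = cexp (2 * π * Complex.I * ((⟨w, hw⟩ : ℍ) : ℂ)) := by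
      show cexp (2 * π * Complex.I * (w + 1)) = cexp (2 * π * Complex.I * w)
      rw [mul_add, Complex.exp_add, mul_one, Complex.exp_two_pi_mul_I, mul_one]
    rw [hexp] at h1
    exact h1.unique h2
  · have hw' : im w ≤ 0 := not_lt.mp hw
    have hw1 : im (w + 1) ≤ 0 := by simpa using hw'
    simp [ofComplex_apply_of_im_nonpos hw1, ofComplex_apply_of_im_nonpos hw']

theorem tendsto_E2 : Tendsto E2 atImInfty (𝓝 1) := by
  have han := analyticAt_cuspFunction_zero one_pos E2_periodic E2_mdifferentiable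
    isBoundedAtImInfty_E2
  have h := tendsto_atImInfty_cuspFunction E2_periodic E2_mdifferentiable isBoundedAtImInfty_E2
  have hps := hasFPowerSeriesOnBall_cuspFunction (h := 1)
    (c := fun m : ℕ ↦ (if m = 0 then 1 else -24 * (ArithmeticFunction.sigma 1 m : ℂ)))
    one_pos han (fun τ ↦ by
      simpa only [Function.Periodic.qParam, ofReal_one, div_one] using
        hasSum_qExpansion_E2 (z := τ))
  have h0 := hps.hasFPowerSeriesAt.coeff_zero (fun _ ↦ 0)
  simp at h0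
  rwa [← h0] at h

/-! ### The Serre derivative of a level one modular form -/

theorem isBoundedAtImInfty_modForm {k : ℤ} (f : ModularForm 𝒮ℒ k) :
    IsBoundedAtImInfty (f : ℍ → ℂ) := by
  have : Fact (IsCusp OnePoint.infty 𝒮ℒ) :=
    ⟨(𝒮ℒ).isCusp_of_mem_strictPeriods one_pos one_mem_strictPeriods_SL⟩
  exact ModularFormClass.bdd_at_infty f

theorem modForm_slash_SL {k : ℤ} (f : ModularForm 𝒮ℒ k) (γ : SL(2, ℤ)) :
    (f : ℍ → ℂ) ∣[k] γ = f :=
  SlashInvariantForm.slash_action_eqn f (Matrix.SpecialLinearGroup.mapGL ℝ γ) ⟨γ, rfl⟩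

theorem tendsto_serreDerivative {k : ℤ} (f : ModularForm 𝒮ℒ k) :
    Tendsto (serreDerivative (k : ℂ) f) atImInfty
      (𝓝 (-(k : ℂ) * 12⁻¹ * (qExpansion 1 f).coeff 0)) := by
  have hD : Tendsto (Dn (f : ℍ → ℂ)) atImInfty (𝓝 0) :=
    isZeroAtImInfty_D (periodic_modForm f) (ModularFormClass.holo f) (isBoundedAtImInfty_modForm f)
  have h2 := ((tendsto_const_nhds (x := (k : ℂ) * 12⁻¹)).mul tendsto_E2).mul (tendsto_modForm f)
  have h3 := hD.sub h2
  simp only [serreDerivative_eq]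
  convert h3 using 2
  ring

/-- The Serre derivative of a level one modular form, as a modular form of weight `k + 2`. -/
noncomputable def serreDerivMF {k : ℤ} (f : ModularForm 𝒮ℒ k) : ModularForm 𝒮ℒ (k + 2) where
  toFun := serreDerivative (k : ℂ) f
  slash_action_eq' A hA := by
    obtain ⟨A, rfl⟩ := hA
    exact serreDerivative_slash_invariant (ModularFormClass.holo f) (modForm_slash_SL f A)
  holo' := serreDerivative_mdifferentiable (k : ℂ) (ModularFormClass.holo f)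
  bdd_at_cusps' {c} hc := by
    rw [Subgroup.IsArithmetic.isCusp_iff_isCusp_SL2Z] at hc
    rw [OnePoint.isBoundedAt_iff_forall_SL2Z hc]
    intro γ _
    rw [serreDerivative_slash_invariant (ModularFormClass.holo f) (modForm_slash_SL f γ)]
    exact (tendsto_serreDerivative f).isBigO_one ℝ

@[simp] theorem serreDerivMF_apply {k : ℤ} (f : ModularForm 𝒮ℒ k) (z : ℍ) :
    serreDerivMF f z = Dn f z - (k : ℂ) * 12⁻¹ * E2 z * f z := rfl

theorem tendsto_serreDerivMF {k : ℤ} (f : ModularForm 𝒮ℒ k) :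
    (qExpansion 1 (serreDerivMF f)).coeff 0 = -(k : ℂ) * 12⁻¹ * (qExpansion 1 f).coeff 0 :=
  tendsto_nhds_unique (tendsto_modForm (serreDerivMF f)) (tendsto_serreDerivative f)

/-! ### Ramanujan's identities -/

theorem eq_smul_of_rank_one {k : ℤ} (hrank : Module.rank ℂ (ModularForm 𝒮ℒ k) = 1)
    (f g : ModularForm 𝒮ℒ k) (hg : (qExpansion 1 g).coeff 0 = 1) :
    f = (qExpansion 1 f).coeff 0 • g := by
  have hg0 : g ≠ 0 := by
    rintro rfl
    have : (qExpansion 1 ((0 : ModularForm 𝒮ℒ k) : ℍ → ℂ)).coeff 0 = 0 := by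
      have h0 : ((0 : ModularForm 𝒮ℒ k) : ℍ → ℂ) = 0 := rfl
      rw [h0, qExpansion_zero]; simp
    rw [this] at hg
    exact zero_ne_one hg
  have hfin : Module.finrank ℂ (ModularForm 𝒮ℒ k) = 1 :=
    Module.finrank_eq_of_rank_eq hrank
  obtain ⟨c, hc⟩ := (finrank_eq_one_iff_of_nonzero' g hg0).mp hfin f
  have hcoeff : (qExpansion 1 f).coeff 0 = c := by
    rw [← hc]
    have := ModularForm.qExpansion_smul one_pos one_mem_strictPeriods_SL c g
    have h2 : ((c • g : ModularForm 𝒮ℒ k) : ℍ → ℂ) = c • (g : ℍ → ℂ) := rfl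
    rw [h2, this]
    simp [hg]
  rw [hcoeff, hc]

theorem ramanujan_E₄ (z : ℍ) : Dn E₄ z = (E2 z * E₄ z - E₆ z) / 3 := by
  have h46 : (6 : ℤ) = 4 + 2 := by norm_num
  have hrank : Module.rank ℂ (ModularForm 𝒮ℒ (4 + 2)) = 1 := by
    rw [← h46]; exact levelOne_weight_six_rank_one
  have key := eq_smul_of_rank_one hrank (serreDerivMF E₄) (ModularForm.mcast h46 E₆) (by
    rw [ModularForm.coe_mcast]; exact E_qExpansion_coeff_zero _ ⟨3, rfl⟩)
  have hz := congrArg (fun F : ModularForm 𝒮ℒ (4 + 2) ↦ F z) key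
  simp only [serreDerivMF_apply, tendsto_serreDerivMF, E_qExpansion_coeff_zero _ ⟨2, rfl⟩,
    smul_apply, ModularForm.coe_mcast] at hz
  push_cast at hz
  simp only [smul_eq_mul] at hz
  linear_combination hz

theorem ramanujan_E₆ (z : ℍ) : Dn E₆ z = (E2 z * E₆ z - E₄ z ^ 2) / 2 := by
  have h68 : (4 + 4 : ℤ) = 6 + 2 := by norm_num
  have hrank : Module.rank ℂ (ModularForm 𝒮ℒ (6 + 2)) = 1 := by
    have h := dimension_level_one 8 ⟨4, rfl⟩
    have h8 : ((8 : ℕ) : ℤ) = 6 + 2 := by norm_num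
    rw [h8] at h
    rw [h]
    have : ¬ (8 ≡ 2 [MOD 12]) := by decide
    rw [if_neg this]
    norm_num
  have hE44 : (qExpansion 1 (ModularForm.mcast h68 (E₄.mul E₄))).coeff 0 = 1 := by
    rw [ModularForm.coe_mcast, ModularForm.coe_mul,
      ModularForm.qExpansion_mul_coe one_pos one_mem_strictPeriods_SL E₄ E₄]
    simp [PowerSeries.coeff_mul, -PowerSeries.coeff_zero_eq_constantCoeff,
      E_qExpansion_coeff_zero _ ⟨2, rfl⟩]
  have key := eq_smul_of_rank_one hrank (serreDerivMF E₆) (ModularForm.mcast h68 (E₄.mul E₄)) hE44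
  have hz := congrArg (fun F : ModularForm 𝒮ℒ (6 + 2) ↦ F z) key
  simp only [serreDerivMF_apply, tendsto_serreDerivMF, E_qExpansion_coeff_zero _ ⟨3, rfl⟩,
    smul_apply, ModularForm.coe_mcast, ModularForm.coe_mul, Pi.mul_apply] at hz
  push_cast at hz
  simp only [smul_eq_mul] at hz
  linear_combination hz

theorem ramanujan_Δ (z : ℍ) : Dn ModularForm.discriminant z = E2 z * ModularForm.discriminant z := by
  have hz : (z : ℂ) ∈ upperHalfPlaneSet := z.im_pos
  have hη : DifferentiableAt ℂ ModularForm.eta (z : ℂ) :=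
    differentiableAt_eta_of_mem_upperHalfPlaneSet hz
  have hη0 : ModularForm.eta (z : ℂ) ≠ 0 := eta_ne_zero hz
  have hlog := logDeriv_eta_eq_E2 z
  have hderiv : deriv ModularForm.eta (z : ℂ) = (π * Complex.I / 12) * E2 z * ModularForm.eta z := by
    rw [logDeriv_apply] at hlog
    field_simp at hlog ⊢
    linear_combination hlog
  have hcomp : (ModularForm.discriminant ∘ ofComplex) =ᶠ[𝓝 (z : ℂ)]
      fun w ↦ ModularForm.eta w ^ 24 := by
    filter_upwards [isOpen_upperHalfPlaneSet.mem_nhds hz] with w hw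
    simp [ModularForm.discriminant, ofComplex_apply_of_im_pos hw]
  have hd : HasDerivAt (fun w ↦ ModularForm.eta w ^ 24)
      (24 * ModularForm.eta (z : ℂ) ^ 23 * deriv ModularForm.eta (z : ℂ)) (z : ℂ) := by
    refine (hη.hasDerivAt.fun_pow 24).congr_deriv ?_
    norm_num
  rw [Derivative.normalizedDerivOfComplex, hcomp.deriv_eq, hd.deriv, hderiv]
  have h2pi : (2 * π * Complex.I : ℂ) ≠ 0 := by simp [Real.pi_ne_zero]
  simp only [ModularForm.discriminant]
  field_simp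
  ring

/-! ### The `j`-function -/

local notation "Δ" => ModularForm.discriminant

/-- The modular `j`-invariant `j = E₄³ / Δ` (so `j = q⁻¹ + 744 + ⋯`). -/
noncomputable def jFun (z : ℍ) : ℂ := E₄ z ^ 3 / Δ z

theorem mdifferentiable_discriminant : MDiff Δ :=
  ModularFormClass.holo CuspForm.discriminant

theorem analyticAt_comp_ofComplex {F : ℍ → ℂ} (hF : MDiff F) (τ : ℍ) :
    AnalyticAt ℂ (F ∘ ofComplex) (τ : ℂ) :=
  (UpperHalfPlane.mdifferentiable_iff.mp hF).analyticAt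
    (isOpen_upperHalfPlaneSet.mem_nhds τ.im_pos)

theorem deriv_comp_ofComplex (F : ℍ → ℂ) (τ : ℍ) :
    deriv (F ∘ ofComplex) (τ : ℂ) = 2 * π * Complex.I * Dn F τ := by
  have h2pi : (2 * π * Complex.I : ℂ) ≠ 0 := by simp [Real.pi_ne_zero]
  rw [Derivative.normalizedDerivOfComplex]
  field_simp

theorem jFun_mdifferentiable : MDiff jFun := by
  rw [UpperHalfPlane.mdifferentiable_iff]
  have h4 := UpperHalfPlane.mdifferentiable_iff.mp (ModularFormClass.holo E₄)
  have hΔ := UpperHalfPlane.mdifferentiable_iff.mp mdifferentiable_discriminant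
  have : jFun ∘ ofComplex = fun w ↦ ((E₄ : ℍ → ℂ) ∘ ofComplex) w ^ 3 / (Δ ∘ ofComplex) w := rfl
  rw [this]
  exact (h4.pow 3).div hΔ fun w _ ↦ discriminant_ne_zero _

theorem jFun_smul (γ : SL(2, ℤ)) (z : ℍ) : jFun (γ • z) = jFun z := by
  have h4 := modForm_smul_SL E₄ γ z
  have hΔ : Δ (γ • z) = denom γ z ^ (12 : ℤ) * Δ z :=
    modForm_smul_SL CuspForm.discriminant γ z
  have hd : denom γ z ≠ 0 := denom_ne_zero γ z
  have hΔ0 := discriminant_ne_zero z
  rw [jFun, jFun, h4, hΔ]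
  have e4 : denom γ z ^ (4 : ℤ) = denom γ z ^ 4 := zpow_ofNat _ _
  have e12 : denom γ z ^ (12 : ℤ) = denom γ z ^ 12 := zpow_ofNat _ _
  rw [e4, e12]
  field_simp

theorem jFun_mul_discriminant (z : ℍ) : jFun z * Δ z = E₄ z ^ 3 := by
  rw [jFun, div_mul_cancel₀ _ (discriminant_ne_zero z)]

theorem jFun_sub_1728 (z : ℍ) : jFun z - 1728 = E₆ z ^ 2 / Δ z := by
  have h := discriminant_eq_E₄_cube_sub_E₆_sq z
  have hΔ0 := discriminant_ne_zero z
  rw [jFun]
  field_simp
  rw [h]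
  ring

/-- `D j = - E₄² E₆ / Δ`. -/
theorem D_jFun (z : ℍ) : Dn jFun z = - E₄ z ^ 2 * E₆ z / Δ z := by
  have hΔ0 := discriminant_ne_zero z
  have hmul : jFun * Δ = (E₄ : ℍ → ℂ) ^ 3 := by
    funext w; exact jFun_mul_discriminant w
  have h1 := congrFun (Derivative.normalizedDerivOfComplex_mul jFun Δ jFun_mdifferentiable
    mdifferentiable_discriminant) z
  have h2 := congrFun (Derivative.normalizedDerivOfComplex_pow (E₄ : ℍ → ℂ) 3
    (ModularFormClass.holo E₄)) z
  rw [hmul, h2] at h1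
  simp only [Pi.mul_apply, Pi.add_apply, Pi.pow_apply, ramanujan_Δ, ramanujan_E₄,
    Pi.ofNat_apply, Nat.cast_ofNat] at h1
  have hj := jFun_mul_discriminant z
  field_simp
  push_cast at h1
  linear_combination (-1 : ℂ) * h1 - E2 z * hj

/-! ### Orders of vanishing of `j - j τ₀` -/

theorem E₄_ne_zero_of_E₆_eq_zero {τ : ℍ} (h : E₆ τ = 0) : E₄ τ ≠ 0 := by
  intro h4
  have h1 := discriminant_eq_E₄_cube_sub_E₆_sq τ
  rw [h, h4] at h1
  exact discriminant_ne_zero τ (by rw [h1]; norm_num)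

theorem E₆_ne_zero_of_E₄_eq_zero {τ : ℍ} (h : E₄ τ = 0) : E₆ τ ≠ 0 := by
  intro h6
  have h1 := discriminant_eq_E₄_cube_sub_E₆_sq τ
  rw [h, h6] at h1
  exact discriminant_ne_zero τ (by rw [h1]; norm_num)

theorem jFun_eq_zero_iff {τ : ℍ} : jFun τ = 0 ↔ E₄ τ = 0 := by
  rw [jFun, div_eq_zero_iff]
  simp [discriminant_ne_zero τ]

theorem jFun_eq_1728_iff {τ : ℍ} : jFun τ = 1728 ↔ E₆ τ = 0 := by
  rw [← sub_eq_zero, jFun_sub_1728, div_eq_zero_iff]
  simp [discriminant_ne_zero τ]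

/-- Away from the values `0` and `1728`, `j - j τ₀` has a simple zero at `τ₀`. -/
theorem analyticOrderAt_jFun_sub_of_ne {τ : ℍ} (h0 : jFun τ ≠ 0) (h1 : jFun τ ≠ 1728) :
    analyticOrderAt (fun w : ℂ ↦ jFun (ofComplex w) - jFun τ) (τ : ℂ) = 1 := by
  have han := analyticAt_comp_ofComplex jFun_mdifferentiable τ
  have hd : deriv (jFun ∘ ofComplex) (τ : ℂ) ≠ 0 := by
    rw [deriv_comp_ofComplex, D_jFun]
    have h2pi : (2 * π * Complex.I : ℂ) ≠ 0 := by simp [Real.pi_ne_zero]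
    have h4 : E₄ τ ≠ 0 := fun h ↦ h0 (jFun_eq_zero_iff.mpr h)
    have h6 : E₆ τ ≠ 0 := fun h ↦ h1 (jFun_eq_1728_iff.mpr h)
    have hΔ := discriminant_ne_zero τ
    exact mul_ne_zero h2pi (div_ne_zero (mul_ne_zero (neg_ne_zero.mpr (pow_ne_zero 2 h4)) h6) hΔ)
  have := han.analyticOrderAt_sub_eq_one_of_deriv_ne_zero hd
  simpa [Function.comp_def, ofComplex_apply] using this

/-- At a point with `j τ₀ = 1728` (e.g. `τ₀ = i`), `j - 1728` has a zero of exact order `2`. -/
theorem analyticOrderAt_jFun_sub_1728 {τ : ℍ} (h : jFun τ = 1728) :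
    analyticOrderAt (fun w : ℂ ↦ jFun (ofComplex w) - 1728) (τ : ℂ) = 2 := by
  have h6 : E₆ τ = 0 := jFun_eq_1728_iff.mp h
  have h4 : E₄ τ ≠ 0 := E₄_ne_zero_of_E₆_eq_zero h6
  have han6 := analyticAt_comp_ofComplex (ModularFormClass.holo E₆) τ
  have hanΔ := analyticAt_comp_ofComplex mdifferentiable_discriminant τ
  have hΔ0 : (Δ ∘ ofComplex) (τ : ℂ) ≠ 0 := discriminant_ne_zero _
  have hanΔinv : AnalyticAt ℂ (fun w ↦ ((Δ ∘ ofComplex) w)⁻¹) (τ : ℂ) := hanΔ.inv hΔ0
  have hfun : (fun w : ℂ ↦ jFun (ofComplex w) - 1728)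
      = ((E₆ : ℍ → ℂ) ∘ ofComplex) ^ 2 * (fun w ↦ ((Δ ∘ ofComplex) w)⁻¹) := by
    funext w
    simp only [Pi.mul_apply, Pi.pow_apply, Function.comp_apply]
    rw [jFun_sub_1728, div_eq_mul_inv]
  have hord6 : analyticOrderAt ((E₆ : ℍ → ℂ) ∘ ofComplex) (τ : ℂ) = 1 := by
    refine han6.analyticOrderAt_eq_one_of_zero_deriv_ne_zero ?_ ?_
    · simpa [ofComplex_apply] using h6
    · rw [deriv_comp_ofComplex, ramanujan_E₆, h6]
      have h2pi : (2 * π * Complex.I : ℂ) ≠ 0 := by simp [Real.pi_ne_zero]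
      refine mul_ne_zero h2pi ?_
      simp only [mul_zero, zero_sub]
      exact div_ne_zero (neg_ne_zero.mpr (pow_ne_zero 2 h4)) two_ne_zero
  have hordΔ : analyticOrderAt (fun w ↦ ((Δ ∘ ofComplex) w)⁻¹) (τ : ℂ) = 0 := by
    rw [hanΔinv.analyticOrderAt_eq_zero]
    exact inv_ne_zero hΔ0
  rw [hfun, analyticOrderAt_mul (han6.pow 2) hanΔinv, analyticOrderAt_pow han6, hord6, hordΔ]
  rfl

/-- At a point with `j τ₀ = 0` (e.g. `τ₀ = ρ`), `j` has a zero of exact order `3`. -/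
theorem analyticOrderAt_jFun_of_eq_zero {τ : ℍ} (h : jFun τ = 0) :
    analyticOrderAt (fun w : ℂ ↦ jFun (ofComplex w)) (τ : ℂ) = 3 := by
  have h4 : E₄ τ = 0 := jFun_eq_zero_iff.mp h
  have h6 : E₆ τ ≠ 0 := E₆_ne_zero_of_E₄_eq_zero h4
  have han4 := analyticAt_comp_ofComplex (ModularFormClass.holo E₄) τ
  have hanΔ := analyticAt_comp_ofComplex mdifferentiable_discriminant τ
  have hΔ0 : (Δ ∘ ofComplex) (τ : ℂ) ≠ 0 := discriminant_ne_zero _
  have hanΔinv : AnalyticAt ℂ (fun w ↦ ((Δ ∘ ofComplex) w)⁻¹) (τ : ℂ) := hanΔ.inv hΔ0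
  have hfun : (fun w : ℂ ↦ jFun (ofComplex w))
      = ((E₄ : ℍ → ℂ) ∘ ofComplex) ^ 3 * (fun w ↦ ((Δ ∘ ofComplex) w)⁻¹) := by
    funext w
    simp only [Pi.mul_apply, Pi.pow_apply, Function.comp_apply]
    rw [jFun, div_eq_mul_inv]
  have hord4 : analyticOrderAt ((E₄ : ℍ → ℂ) ∘ ofComplex) (τ : ℂ) = 1 := by
    refine han4.analyticOrderAt_eq_one_of_zero_deriv_ne_zero ?_ ?_
    · simpa [ofComplex_apply] using h4
    · rw [deriv_comp_ofComplex, ramanujan_E₄, h4]
      have h2pi : (2 * π * Complex.I : ℂ) ≠ 0 := by simp [Real.pi_ne_zero]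
      refine mul_ne_zero h2pi ?_
      simp only [mul_zero, zero_sub]
      exact div_ne_zero (neg_ne_zero.mpr h6) three_ne_zero
  have hordΔ : analyticOrderAt (fun w ↦ ((Δ ∘ ofComplex) w)⁻¹) (τ : ℂ) = 0 := by
    rw [hanΔinv.analyticOrderAt_eq_zero]
    exact inv_ne_zero hΔ0
  rw [hfun, analyticOrderAt_mul (han4.pow 3) hanΔinv, analyticOrderAt_pow han4, hord4, hordΔ]
  rfl

/-! ### The special points `i` and `ρ` -/

theorem S_smul_I : ModularGroup.S • UpperHalfPlane.I = UpperHalfPlane.I := by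
  rw [UpperHalfPlane.ext_iff, modular_S_smul]
  simp [UpperHalfPlane.I]

theorem E₆_I : E₆ UpperHalfPlane.I = 0 := by
  have h := modForm_smul_SL E₆ ModularGroup.S UpperHalfPlane.I
  rw [S_smul_I, ModularGroup.denom_S] at h
  have hI : ((UpperHalfPlane.I : ℍ) : ℂ) ^ (6 : ℤ) = -1 := by
    rw [zpow_ofNat]
    show Complex.I ^ 6 = -1
    have : Complex.I ^ 6 = (Complex.I ^ 2) ^ 3 := by ring
    rw [this, Complex.I_sq]; norm_num
  rw [hI] at h
  have h2 : (2 : ℂ) * E₆ UpperHalfPlane.I = 0 := by linear_combination h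
  simpa using h2

/-- `j(i) = 1728`. -/
theorem jFun_I : jFun UpperHalfPlane.I = 1728 := jFun_eq_1728_iff.mpr E₆_I

/-- The point `ρ = e^{2πi/3}` of the upper half plane. -/
noncomputable def rho : ℍ :=
  ⟨-1 / 2 + (Real.sqrt 3 / 2 : ℝ) * Complex.I, by simp⟩

theorem coe_rho : (rho : ℂ) = -1 / 2 + (Real.sqrt 3 / 2 : ℝ) * Complex.I := rfl

theorem rho_sq_add : (rho : ℂ) ^ 2 + rho + 1 = 0 := by
  have hs : ((Real.sqrt 3 : ℝ) : ℂ) ^ 2 = 3 := by
    rw [← Complex.ofReal_pow, Real.sq_sqrt (by norm_num : (0 : ℝ) ≤ 3)]; norm_num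
  rw [coe_rho]
  push_cast
  linear_combination ((Real.sqrt 3 : ℂ) ^ 2 / 4) * Complex.I_sq - (1 / 4 : ℂ) * hs

theorem ST_smul_rho : (ModularGroup.S * ModularGroup.T) • rho = rho := by
  rw [mul_smul, UpperHalfPlane.ext_iff, modular_S_smul, modular_T_smul]
  simp only [coe_vadd, ofReal_one]
  have h := rho_sq_add
  have hne : (-(1 + (rho : ℂ))) ≠ 0 := by
    intro h0
    have : (rho : ℂ) = -1 := by linear_combination -h0
    rw [this] at h
    norm_num at h
  rw [inv_eq_iff_eq_inv]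
  apply eq_inv_of_mul_eq_one_left
  linear_combination -h

theorem E₄_rho : E₄ rho = 0 := by
  have hS := modForm_smul_SL E₄ ModularGroup.S (ModularGroup.T • rho)
  have hT := modForm_smul_SL E₄ ModularGroup.T rho
  rw [← mul_smul, ST_smul_rho] at hS
  rw [hT, ModularGroup.denom_S] at hS
  have hdT : denom ModularGroup.T rho = 1 := by
    rw [ModularGroup.denom_apply]
    simp [ModularGroup.T]
  have hcoe : ((ModularGroup.T • rho : ℍ) : ℂ) = 1 + rho := by
    rw [modular_T_smul]; simp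
  rw [hdT, hcoe, one_zpow, one_mul, zpow_ofNat] at hS
  have h := rho_sq_add
  have h4 : (1 + (rho : ℂ)) ^ 4 = -(rho : ℂ) - 1 := by
    have h2 : (1 + (rho : ℂ)) ^ 2 = rho := by linear_combination h
    calc (1 + (rho : ℂ)) ^ 4 = ((1 + (rho : ℂ)) ^ 2) ^ 2 := by ring
      _ = (rho : ℂ) ^ 2 := by rw [h2]
      _ = -(rho : ℂ) - 1 := by linear_combination h
  rw [h4] at hS
  have hne : (rho : ℂ) + 2 ≠ 0 := by
    intro h0
    have him := congrArg Complex.im h0
    rw [coe_rho] at him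
    simp at him
  have : ((rho : ℂ) + 2) * E₄ rho = 0 := by linear_combination hS
  exact (mul_eq_zero.mp this).resolve_left hne

/-- `j(ρ) = 0`. -/
theorem jFun_rho : jFun rho = 0 := jFun_eq_zero_iff.mpr E₄_rho

/-! ### Surjectivity of `j` -/

theorem tendsto_discriminant : Tendsto Δ atImInfty (𝓝 0) := discriminant_isZeroAtImInfty

theorem tendsto_E₄ : Tendsto E₄ atImInfty (𝓝 1) := by
  have h := tendsto_modForm E₄
  rwa [E_qExpansion_coeff_zero _ ⟨2, rfl⟩] at h

/-- If `j` omitted the value `c`, then `1 / (j - c)` would be a nonzero level one modular form of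
weight `0` vanishing at `i∞`. -/
theorem jFun_surjective : Function.Surjective jFun := by
  intro c
  by_contra hc
  push Not at hc
  have hne : ∀ z : ℍ, jFun z - c ≠ 0 := fun z ↦ sub_ne_zero.mpr (hc z)
  have hholo : MDiff (fun z : ℍ ↦ (jFun z - c)⁻¹) := by
    rw [UpperHalfPlane.mdifferentiable_iff]
    have hj := UpperHalfPlane.mdifferentiable_iff.mp jFun_mdifferentiable
    have : (fun z : ℍ ↦ (jFun z - c)⁻¹) ∘ ofComplex
        = fun w ↦ ((jFun ∘ ofComplex) w - c)⁻¹ := rfl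
    rw [this]
    exact (hj.sub_const c).inv fun w _ ↦ hne _
  have htend : Tendsto (fun z : ℍ ↦ (jFun z - c)⁻¹) atImInfty (𝓝 0) := by
    have h1 : Tendsto (fun z : ℍ ↦ Δ z / (E₄ z ^ 3 - c * Δ z)) atImInfty (𝓝 (0 / (1 ^ 3 - c * 0))) :=
      tendsto_discriminant.div ((tendsto_E₄.pow 3).sub (tendsto_discriminant.const_mul c))
        (by norm_num)
    rw [zero_div] at h1
    refine h1.congr fun z ↦ ?_
    have hΔ0 := discriminant_ne_zero z
    have h2 : jFun z - c = (E₄ z ^ 3 - c * Δ z) / Δ z := by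
      rw [jFun]; field_simp
    rw [h2, inv_div]
  let g : ModularForm 𝒮ℒ 0 :=
    { toFun := fun z ↦ (jFun z - c)⁻¹
      slash_action_eq' := by
        intro A hA
        obtain ⟨A, rfl⟩ := hA
        ext z
        have := ModularForm.SL_slash_apply (f := fun z : ℍ ↦ (jFun z - c)⁻¹) (k := 0) A z
        simp only [neg_zero, zpow_zero, mul_one] at this
        rw [jFun_smul] at this
        exact this
      holo' := hholo
      bdd_at_cusps' := by
        intro c' hc'
        rw [Subgroup.IsArithmetic.isCusp_iff_isCusp_SL2Z] at hc'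
        rw [OnePoint.isBoundedAt_iff_forall_SL2Z hc']
        intro γ _
        have hinv : (fun z : ℍ ↦ (jFun z - c)⁻¹) ∣[(0 : ℤ)] γ = fun z : ℍ ↦ (jFun z - c)⁻¹ := by
          ext z
          have := ModularForm.SL_slash_apply (f := fun z : ℍ ↦ (jFun z - c)⁻¹) (k := 0) γ z
          simp only [neg_zero, zpow_zero, mul_one] at this
          rw [jFun_smul] at this
          exact this
        rw [hinv]
        exact htend.isBigO_one ℝ }
  obtain ⟨a, ha⟩ := ModularFormClass.levelOne_weight_zero_const g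
  have hg : ∀ z : ℍ, (jFun z - c)⁻¹ = a := fun z ↦ congrFun ha z
  have ha0 : a = 0 := by
    have h1 : Tendsto (fun _ : ℍ ↦ a) atImInfty (𝓝 0) := htend.congr hg
    exact tendsto_nhds_unique tendsto_const_nhds h1
  exact inv_ne_zero (hne UpperHalfPlane.I) (by rw [hg, ha0])

end Fermat.Agent.X0
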