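import Fermat.Agent.X0.Ana.JHol

/-!
# The derivative of `j` as a holomorphic function, and the map `f ↦ f / D j`

`DjH = D j = - E₄² E₆ / Δ ∈ HolH` (`D = (2πi)⁻¹ d/dτ`), its weight two transformation law, the
relation `ord (j - j τ₀) = ord (D j) + 1` at every point, a criterion for an element of `MerH`
to be holomorphic, and the dictionary between weight two forms `f` and the invariant functions
`f / D j`.
-/

set_option autoImplicit false

open UpperHalfPlane ModularForm EisensteinSeries MatrixGroups Filter Function CongruenceSubgroup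
open scoped Real Topology Manifold WithZero

namespace Fermat.Agent.X0

local notation "Dn" => Derivative.normalizedDerivOfComplex
local notation "Δ" => ModularForm.discriminant

/-! ### `D j` -/

theorem mdifferentiable_Dj : MDiff (fun z : ℍ ↦ - E₄ z ^ 2 * E₆ z / Δ z) := by
  rw [UpperHalfPlane.mdifferentiable_iff]
  have h4 := UpperHalfPlane.mdifferentiable_iff.mp (ModularFormClass.holo E₄)
  have h6 := UpperHalfPlane.mdifferentiable_iff.mp (ModularFormClass.holo E₆)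
  have hΔ := UpperHalfPlane.mdifferentiable_iff.mp mdifferentiable_discriminant
  have : (fun z : ℍ ↦ - E₄ z ^ 2 * E₆ z / Δ z) ∘ ofComplex
      = fun w ↦ (-(((E₄ : ℍ → ℂ) ∘ ofComplex) w ^ 2) * ((E₆ : ℍ → ℂ) ∘ ofComplex) w)
          / (Δ ∘ ofComplex) w := rfl
  rw [this]
  exact (((h4.pow 2).neg).mul h6).div hΔ fun w _ ↦ discriminant_ne_zero _

/-- `D j = - E₄² E₆ / Δ` as an element of `HolH`. -/
noncomputable def DjH : HolH := ⟨fun z : ℍ ↦ - E₄ z ^ 2 * E₆ z / Δ z, mdifferentiable_Dj⟩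

theorem DjH_apply (τ : ℍ) : (DjH : ℍ → ℂ) τ = - E₄ τ ^ 2 * E₆ τ / Δ τ := rfl

theorem D_jFun_eq (τ : ℍ) : Dn jFun τ = (DjH : ℍ → ℂ) τ := D_jFun τ

theorem deriv_jFun (τ : ℍ) :
    deriv (jFun ∘ ofComplex) (τ : ℂ) = 2 * π * Complex.I * (DjH : ℍ → ℂ) τ := by
  rw [deriv_comp_ofComplex, D_jFun_eq]

/-- `D j` as an element of `MerH`. -/
noncomputable def DjM : MerH := algebraMap HolH MerH DjH

theorem DjH_ne_zero : DjH ≠ 0 := by
  intro h
  -- at a point where `j ≠ 0, 1728` both `E₄` and `E₆` are nonzero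
  obtain ⟨τ, hτ⟩ := jFun_surjective 1
  have h4 : E₄ τ ≠ 0 := fun h4 ↦ by
    have := jFun_eq_zero_iff.mpr h4
    rw [hτ] at this
    exact one_ne_zero this
  have h6 : E₆ τ ≠ 0 := fun h6 ↦ by
    have := jFun_eq_1728_iff.mpr h6
    rw [hτ] at this
    norm_num at this
  have h0 : (DjH : ℍ → ℂ) τ = 0 := by rw [h]; rfl
  rw [DjH_apply, div_eq_zero_iff] at h0
  rcases h0 with h0 | h0
  · exact mul_ne_zero (neg_ne_zero.mpr (pow_ne_zero 2 h4)) h6 h0
  · exact discriminant_ne_zero τ h0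

theorem DjM_ne_zero : DjM ≠ 0 := by
  rw [DjM, Ne, map_eq_zero_iff _ (IsFractionRing.injective HolH MerH)]
  exact DjH_ne_zero

/-- The weight two transformation law of `D j`. -/
theorem DjH_smul (γ : SL(2, ℤ)) (z : ℍ) :
    (DjH : ℍ → ℂ) (γ • z) = denom γ z ^ 2 * (DjH : ℍ → ℂ) z := by
  have h4 := modForm_smul_SL E₄ γ z
  have h6 := modForm_smul_SL E₆ γ z
  have hΔ : Δ (γ • z) = denom γ z ^ (12 : ℤ) * Δ z :=
    modForm_smul_SL CuspForm.discriminant γ z
  have hd : denom γ z ≠ 0 := denom_ne_zero γ z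
  have hΔ0 := discriminant_ne_zero z
  rw [DjH_apply, DjH_apply, h4, h6, hΔ]
  have e4 : denom γ z ^ (4 : ℤ) = denom γ z ^ 4 := zpow_ofNat _ _
  have e6 : denom γ z ^ (6 : ℤ) = denom γ z ^ 6 := zpow_ofNat _ _
  have e12 : denom γ z ^ (12 : ℤ) = denom γ z ^ 12 := zpow_ofNat _ _
  rw [e4, e6, e12]
  field_simp

/-! ### `ord (j - j τ₀) = ord (D j) + 1` -/

theorem ordH_jH_sub (τ₀ : ℍ) :
    ordH τ₀ (jH - algebraMap ℂ HolH (jFun τ₀)) = ordH τ₀ DjH + 1 := by
  have han : AnalyticAt ℂ (toFunC jH) τ₀ := toFunC_analyticAt jH τ₀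
  have h1 := han.analyticOrderAt_deriv_add_one
  have h2 : (fun z ↦ toFunC jH z - toFunC jH τ₀)
      = toFunC (jH - algebraMap ℂ HolH (jFun τ₀)) := by
    funext z
    rw [toFunC_coe]
    rfl
  have h2pi : (2 * π * Complex.I : ℂ) ≠ 0 := by simp [Real.pi_ne_zero]
  have h3 : deriv (toFunC jH) =ᶠ[𝓝 (τ₀ : ℂ)]
      fun z ↦ (2 * π * Complex.I : ℂ) * toFunC DjH z := by
    filter_upwards [isOpen_upperHalfPlaneSet.mem_nhds τ₀.im_pos] with z hz
    have h := deriv_jFun ⟨z, hz⟩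
    rw [UpperHalfPlane.coe_mk] at h
    rw [toFunC, toFunC, comp_apply, ofComplex_apply_of_im_pos hz]
    exact h
  have h4 : analyticOrderAt (fun z ↦ (2 * π * Complex.I : ℂ) * toFunC DjH z) (τ₀ : ℂ)
      = analyticOrderAt (toFunC DjH) (τ₀ : ℂ) := by
    have hc : AnalyticAt ℂ (fun _ : ℂ ↦ (2 * π * Complex.I : ℂ)) (τ₀ : ℂ) := analyticAt_const
    have := analyticOrderAt_mul hc (toFunC_analyticAt DjH τ₀)
    rw [show (fun z ↦ (2 * π * Complex.I : ℂ) * toFunC DjH z)
      = (fun _ : ℂ ↦ (2 * π * Complex.I : ℂ)) * toFunC DjH from rfl, this,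
      (hc.analyticOrderAt_eq_zero).mpr h2pi, zero_add]
  rw [ordH, ordH, ← h2, ← h1, analyticOrderAt_congr h3, h4]

/-- In terms of valuations: `ord_{τ₀} (j - j τ₀) = exp (-1) · ord_{τ₀} (D j)`. -/
theorem ordAt_xM_sub_eq_mul_ordAt_DjM (τ₀ : ℍ) :
    ordAt τ₀ (xM - algebraMap ℂ MerH (jFun τ₀)) = WithZero.exp (-1) * ordAt τ₀ DjM := by
  rw [xM_sub_const, ordAt_algebraMap, DjM, ordAt_algebraMap, ordH_jH_sub, expNeg_add, mul_comm]
  congr 1

/-! ### A holomorphy criterion in `MerH` -/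

theorem le_of_expNeg_le {a b : ℕ∞} (h : expNeg a ≤ expNeg b) : b ≤ a := by
  by_contra hlt
  rw [not_le] at hlt
  have h1 := expNeg_antitone hlt.le
  exact hlt.ne (expNeg_injective (le_antisymm h h1))

/-- An element of `MerH` which is regular at every point is holomorphic. -/
theorem exists_HolH_of_ordAt_le_one (x : MerH) (hx : ∀ τ : ℍ, ordAt τ x ≤ 1) :
    ∃ f : HolH, algebraMap HolH MerH f = x := by
  obtain ⟨a, b, hb, rfl⟩ := IsFractionRing.div_surjective (A := HolH) x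
  have hb0 : b ≠ 0 := nonZeroDivisors.ne_zero hb
  have hord : ∀ τ : ℍ, ordH τ b ≤ ordH τ a := by
    intro τ
    have h := hx τ
    rw [map_div₀, ordAt_algebraMap, ordAt_algebraMap] at h
    have hbne : expNeg (ordH τ b) ≠ 0 := by
      rw [Ne, expNeg_eq_zero_iff, ordH_eq_top_iff]
      exact hb0
    have h2 : expNeg (ordH τ a) ≤ expNeg (ordH τ b) := by
      rwa [div_le_one₀ (zero_lt_iff.mpr hbne)] at h
    exact le_of_expNeg_le h2
  set U : Set ℂ := {z | 0 < z.im} with hU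
  set g : ℂ → ℂ := toFunC a / toFunC b with hg
  have hgm : MeromorphicOn g U := fun z hz =>
    ((toFunC_analyticOnNhd a z hz).meromorphicAt).div ((toFunC_analyticOnNhd b z hz).meromorphicAt)
  set G : ℂ → ℂ := toMeromorphicNFOn g U with hG
  have hGan : ∀ z ∈ U, AnalyticAt ℂ G z := by
    intro z hz
    have hnf : MeromorphicNFAt G z := meromorphicNFOn_toMeromorphicNFOn g U hz
    rw [← hnf.meromorphicOrderAt_nonneg_iff_analyticAt, hG,
      meromorphicOrderAt_toMeromorphicNFOn hgm hz, hg,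
      meromorphicOrderAt_div (toFunC_analyticOnNhd a z hz).meromorphicAt
        (toFunC_analyticOnNhd b z hz).meromorphicAt,
      (toFunC_analyticOnNhd a z hz).meromorphicOrderAt_eq,
      (toFunC_analyticOnNhd b z hz).meromorphicOrderAt_eq]
    have h1 := hord ⟨z, hz⟩
    have h2 : ordH ⟨z, hz⟩ b ≠ ⊤ := by
      rw [Ne, ordH_eq_top_iff]
      exact hb0
    rw [ordH, ordH, UpperHalfPlane.coe_mk] at h1
    rw [ordH, UpperHalfPlane.coe_mk] at h2
    generalize analyticOrderAt (toFunC a) z = oa at h1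
    generalize analyticOrderAt (toFunC b) z = ob at h1 h2
    lift ob to ℕ using h2
    induction oa using ENat.recTopCoe with
    | top => simp
    | coe m =>
      have hnm : ob ≤ m := by exact_mod_cast h1
      simp only [ENat.map_natCast]
      have h2 : (0 : ℤ) ≤ (m : ℤ) - ob := by omega
      have h3 : ((0 : ℤ) : WithTop ℤ) ≤ (((m : ℤ) - ob : ℤ) : WithTop ℤ) :=
        WithTop.coe_le_coe.mpr h2
      rw [WithTop.LinearOrderedAddCommGroup.coe_sub] at h3
      exact h3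
  have key : ∀ z ∈ U, G z * toFunC b z = toFunC a z := by
    intro z hz
    have hA := toFunC_analyticOnNhd a z hz
    have hB := toFunC_analyticOnNhd b z hz
    have h1 : G =ᶠ[𝓝[≠] z] g := hgm.toMeromorphicNFOn_eq_self_on_nhdsNE hz
    have h2 : ∀ᶠ w in 𝓝[≠] z, toFunC b w ≠ 0 := by
      rcases hB.eventually_eq_zero_or_eventually_ne_zero with h | h
      · exfalso
        have : ordH ⟨z, hz⟩ b = ⊤ := by
          rw [ordH, analyticOrderAt_eq_top]
          exact h
        rw [ordH_eq_top_iff] at this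
        exact hb0 this
      · exact h
    have h3 : (fun w ↦ G w * toFunC b w) =ᶠ[𝓝[≠] z] toFunC a := by
      filter_upwards [h1, h2] with w hw1 hw2
      rw [hw1, hg, Pi.div_apply, div_mul_cancel₀ _ hw2]
    have h4 : Tendsto (fun w ↦ G w * toFunC b w) (𝓝[≠] z) (𝓝 (G z * toFunC b z)) :=
      (((hGan z hz).continuousAt.mul hB.continuousAt).tendsto).mono_left nhdsWithin_le_nhds
    have h5 : Tendsto (toFunC a) (𝓝[≠] z) (𝓝 (toFunC a z)) :=
      (hA.continuousAt.tendsto).mono_left nhdsWithin_le_nhds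
    exact tendsto_nhds_unique (h4.congr' h3) h5
  have hf : MDiff (fun τ : ℍ ↦ G τ) := by
    rw [UpperHalfPlane.mdifferentiable_iff]
    have h1 : DifferentiableOn ℂ G U := fun z hz ↦ (hGan z hz).differentiableAt.differentiableWithinAt
    refine h1.congr fun z hz ↦ ?_
    simp only [comp_apply, ofComplex_apply_of_im_pos hz, UpperHalfPlane.coe_mk]
  refine ⟨⟨fun τ : ℍ ↦ G τ, hf⟩, ?_⟩
  rw [eq_div_iff (by
    rw [Ne, map_eq_zero_iff _ (IsFractionRing.injective HolH MerH)]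
    exact hb0), ← map_mul]
  congr 1
  ext τ
  have := key τ τ.im_pos
  rw [toFunC_coe, toFunC_coe] at this
  exact this


/-! ### Weight two cusp forms of level `Γ₀(N)` and the functions `f / D j` -/

/-- Constructor for weight two cusp forms of level `Γ₀(N)`. -/
noncomputable def mkCuspForm (N : ℕ) [NeZero N] (g : ℍ → ℂ) (hol : MDiff g)
    (hinv : ∀ γ ∈ Gamma0 N, g ∣[(2 : ℤ)] γ = g)
    (hcusp : ∀ δ : SL(2, ℤ), IsZeroAtImInfty (g ∣[(2 : ℤ)] δ)) : CuspForm (Gamma0 N) 2 where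
  toFun := g
  slash_action_eq' := by
    intro γ hγ
    obtain ⟨γ', hγ', rfl⟩ := Subgroup.mem_map.mp hγ
    exact hinv γ' hγ'
  holo' := hol
  zero_at_cusps' := by
    intro c hc
    have hc' : IsCusp c 𝒮ℒ := (Subgroup.IsArithmetic.isCusp_iff_isCusp_SL2Z _).mp hc
    rw [OnePoint.isZeroAt_iff_forall_SL2Z hc']
    intro γ _
    exact hcusp γ


@[simp]
theorem mkCuspForm_apply (N : ℕ) [NeZero N] (g : ℍ → ℂ) (hol : MDiff g)
    (hinv : ∀ γ ∈ Gamma0 N, g ∣[(2 : ℤ)] γ = g)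
    (hcusp : ∀ δ : SL(2, ℤ), IsZeroAtImInfty (g ∣[(2 : ℤ)] δ)) (τ : ℍ) :
    mkCuspForm N g hol hinv hcusp τ = g τ := rfl

/-- A cusp form as an element of `HolH`. -/
noncomputable def cuspFormH {N : ℕ} : CuspForm (Gamma0 N) 2 →ₗ[ℂ] HolH where
  toFun f := ⟨f, CuspFormClass.holo f⟩
  map_add' _ _ := rfl
  map_smul' _ _ := rfl

@[simp]
theorem cuspFormH_apply {N : ℕ} (f : CuspForm (Gamma0 N) 2) (τ : ℍ) :
    (cuspFormH f : ℍ → ℂ) τ = f τ := rfl

theorem cuspFormH_injective {N : ℕ} : Function.Injective (cuspFormH (N := N)) := by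
  intro f g h
  ext τ
  have := congrFun (congrArg Subtype.val h) τ
  exact this

/-- The function `denom γ` as an element of `HolH`. -/
noncomputable def denomH (γ : SL(2, ℤ)) : HolH :=
  ⟨fun τ : ℍ ↦ denom γ τ, mdifferentiable_denom _⟩

@[simp]
theorem denomH_apply (γ : SL(2, ℤ)) (τ : ℍ) : (denomH γ : ℍ → ℂ) τ = denom γ τ := rfl

theorem compSL_DjH (γ : SL(2, ℤ)) : compSL γ DjH = denomH γ ^ 2 * DjH := by
  ext τ
  rw [compSL_apply, DjH_smul]
  rfl

/-- The weight two transformation law in `HolH`. -/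
theorem compSL_cuspFormH {N : ℕ} (f : CuspForm (Gamma0 N) 2) (γ : SL(2, ℤ))
    (hγ : γ ∈ Gamma0 N) : compSL γ (cuspFormH f) = denomH γ ^ 2 * cuspFormH f := by
  ext τ
  rw [compSL_apply, cuspFormH_apply]
  have h := SlashInvariantForm.slash_action_eqn_SL'' f hγ τ
  rw [h]
  rfl

/-- `f ↦ f / D j`, as a linear map from weight two cusp forms to `MerH`. -/
noncomputable def yOf {N : ℕ} : CuspForm (Gamma0 N) 2 →ₗ[ℂ] MerH :=
  (LinearMap.mulRight ℂ (DjM⁻¹ : MerH)) ∘ₗ
    (IsScalarTower.toAlgHom ℂ HolH MerH).toLinearMap ∘ₗ cuspFormH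

theorem yOf_apply {N : ℕ} (f : CuspForm (Gamma0 N) 2) :
    yOf f = algebraMap HolH MerH (cuspFormH f) / DjM := by
  rw [div_eq_mul_inv]
  rfl

theorem yOf_mul_DjM {N : ℕ} (f : CuspForm (Gamma0 N) 2) :
    yOf f * DjM = algebraMap HolH MerH (cuspFormH f) := by
  rw [yOf_apply, div_mul_cancel₀ _ DjM_ne_zero]

theorem yOf_injective {N : ℕ} : Function.Injective (yOf (N := N)) := by
  intro f g h
  apply cuspFormH_injective
  apply IsFractionRing.injective HolH MerH
  rw [← yOf_mul_DjM, ← yOf_mul_DjM, h]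

/-- `f / D j` is regular up to the zeros of `D j`. -/
theorem ordAt_yOf_mul_le_one {N : ℕ} (f : CuspForm (Gamma0 N) 2) (τ : ℍ) :
    ordAt τ (yOf f) * ordAt τ DjM ≤ 1 := by
  rw [← map_mul, yOf_mul_DjM]
  exact ordAt_algebraMap_le_one τ _

/-- `f / D j` is `Γ₀(N)`-invariant. -/
theorem compSLMer_yOf {N : ℕ} (f : CuspForm (Gamma0 N) 2) (γ : SL(2, ℤ)) (hγ : γ ∈ Gamma0 N) :
    compSLMer γ (yOf f) = yOf f := by
  have hne : algebraMap HolH MerH (denomH γ ^ 2) ≠ 0 := by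
    rw [Ne, map_eq_zero_iff _ (IsFractionRing.injective HolH MerH)]
    intro h
    have := congrFun (congrArg Subtype.val h) UpperHalfPlane.I
    exact pow_ne_zero 2 (denom_ne_zero γ UpperHalfPlane.I) this
  rw [yOf_apply, DjM, map_div₀, compSLMer_algebraMap, compSLMer_algebraMap, compSL_DjH,
    compSL_cuspFormH f γ hγ, map_mul, map_mul, mul_div_mul_left _ _ hne]

/-- **Converse.** A `Γ₀(N)`-invariant element `y` of `MerH` such that `y · D j` is regular
everywhere and vanishes at all cusps is `f / D j` for a weight two cusp form `f`. -/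
theorem exists_cuspForm_yOf_eq (N : ℕ) [NeZero N] (y : MerH)
    (hinv : ∀ γ ∈ Gamma0 N, compSLMer γ y = y)
    (hhol : ∀ τ : ℍ, ordAt τ (y * DjM) ≤ 1)
    (hcusp : ∀ g : HolH, algebraMap HolH MerH g = y * DjM →
      ∀ δ : SL(2, ℤ), IsZeroAtImInfty ((g : ℍ → ℂ) ∣[(2 : ℤ)] δ)) :
    ∃ f : CuspForm (Gamma0 N) 2, yOf f = y := by
  obtain ⟨g, hg⟩ := exists_HolH_of_ordAt_le_one (y * DjM) hhol
  have hwt : ∀ γ ∈ Gamma0 N, compSL γ g = denomH γ ^ 2 * g := by
    intro γ hγ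
    have h1 : algebraMap HolH MerH (compSL γ g * DjH)
        = algebraMap HolH MerH (denomH γ ^ 2 * g * DjH) := by
      rw [map_mul, ← compSLMer_algebraMap, hg, map_mul, hinv γ hγ, DjM, compSLMer_algebraMap,
        compSL_DjH, map_mul (algebraMap HolH MerH) (denomH γ ^ 2 * g), map_mul, map_mul, hg, DjM]
      ring
    exact mul_right_cancel₀ DjH_ne_zero (IsFractionRing.injective HolH MerH h1)
  have hinv' : ∀ γ ∈ Gamma0 N, (g : ℍ → ℂ) ∣[(2 : ℤ)] γ = (g : ℍ → ℂ) := by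
    intro γ hγ
    funext τ
    rw [slash_action_eq'_iff]
    have h2 := congrFun (congrArg Subtype.val (hwt γ hγ)) τ
    simp only [compSL_apply] at h2
    rw [h2]
    rfl
  refine ⟨mkCuspForm N g g.2 hinv' (hcusp g hg), ?_⟩
  rw [yOf_apply, div_eq_iff DjM_ne_zero, ← hg]
  rfl

end Fermat.Agent.X0
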