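import Fermat.Agent.X0.Ana.EtaSeries
import Fermat.Agent.X0.Ana.JFunction
import Fermat.Prelude.Def_ModularCurve_JqCoeff

/-!
# The Laurent expansion of the `j`-function at `i∞` is the formal series `jqModC ℂ`
-/

set_option autoImplicit false

noncomputable section

namespace Fermat.Agent.X0

open Filter Topology Complex Function ModularForm EisensteinSeries
open UpperHalfPlane hiding I
open scoped Manifold MatrixGroups ArithmeticFunction.sigma

local notation "Δ" => ModularForm.discriminant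

theorem isHolInf_modForm {k : ℤ} (f : ModularForm 𝒮ℒ k) : IsHolInf 1 (f : ℍ → ℂ) :=
  ⟨f.holo', periodic_modForm f, isBoundedAtImInfty_modForm f⟩

/-- The `q`-expansion of `E₄` is the formal series `1 + 240 ∑ σ₃(n) qⁿ`. -/
theorem qExpansion_E₄ :
    qExpansion 1 (E₄ : ℍ → ℂ) = ModularCurve.eisenstein4.map (Int.castRingHom ℂ) := by
  ext m
  rw [PowerSeries.coeff_map, E_qExpansion_coeff _ ⟨2, rfl⟩, ModularCurve.eisenstein4,
    PowerSeries.coeff_mk]
  by_cases hm : m = 0
  · simp [hm]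
  · simp only [hm, if_false]
    rw [show bernoulli 4 = -1 / 30 by decide +kernel, ArithmeticFunction.sigma_apply]
    push_cast
    norm_num

theorem etaFun_ne_zero (τ : ℍ) : etaFun τ ≠ 0 := by
  have := eta_tprod_ne_zero τ.2
  simpa [etaFun, eta_q] using this

theorem isHolInf_discriminant : IsHolInf 1 (Δ : ℍ → ℂ) := by
  rw [discriminant_eq_qPar_mul_etaFun_pow]
  exact (isHolInf_qPar one_pos).mul (isHolInf_etaFun.pow 24)

/-- `q * j = E₄ ^ 3 / ∏ (1 - qⁿ) ^ 24`. -/
theorem qPar_mul_jFun (τ : ℍ) : qPar 1 τ * jFun τ = E₄ τ ^ 3 / etaFun τ ^ 24 := by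
  have hΔ : Δ τ = qPar 1 τ * etaFun τ ^ 24 := by
    have := congrFun discriminant_eq_qPar_mul_etaFun_pow τ
    simpa using this
  have h1 : qPar 1 τ ≠ 0 := qPar_ne_zero 1 τ
  have h2 : etaFun τ ^ 24 ≠ 0 := pow_ne_zero _ (etaFun_ne_zero τ)
  rw [jFun, hΔ]
  field_simp

theorem tendsto_qPar_mul_jFun : Tendsto (qPar 1 * jFun) atImInfty (𝓝 1) := by
  have h : Tendsto (fun τ : ℍ => E₄ τ ^ 3 / etaFun τ ^ 24) atImInfty (𝓝 (1 ^ 3 / 1 ^ 24)) :=
    (tendsto_E₄.pow 3).div (tendsto_etaFun.pow 24) (by norm_num)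
  rw [show (1 : ℂ) ^ 3 / 1 ^ 24 = 1 by norm_num] at h
  refine h.congr fun τ => ?_
  rw [Pi.mul_apply, qPar_mul_jFun]

theorem periodic_jFun : Periodic (jFun ∘ ofComplex) (1 : ℝ) := by
  intro z
  simp only [Function.comp_apply, jFun]
  have h1 := periodic_modForm E₄ z
  have h2 := isHolInf_discriminant.periodic z
  simp only [Function.comp_apply, ofReal_one] at h1 h2 ⊢
  rw [h1, h2]

/-- `j` is meromorphic at `i∞` (of period `1`). -/
theorem isMerInf_jFun : IsMerInf 1 jFun where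
  mdiff := jFun_mdifferentiable
  periodic := periodic_jFun
  bdd := ⟨1, by rw [pow_one]; exact tendsto_qPar_mul_jFun.isBigO_one ℝ⟩

/-- **The Laurent expansion of `j` at `i∞`** is the formal series `jqModC ℂ` of the Prelude. -/
theorem expandFun_jFun : expandFun 1 jFun = ModularCurve.jqModC ℂ := by
  have hE : IsHolInf 1 ((E₄ : ℍ → ℂ) ^ 3) := (isHolInf_modForm E₄).pow 3
  have hmul : jFun * (Δ : ℍ → ℂ) = (E₄ : ℍ → ℂ) ^ 3 := by
    funext τ
    simpa using jFun_mul_discriminant τ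
  have h1 := expandFun_mul one_pos isMerInf_jFun (IsMerInf.of_isHolInf isHolInf_discriminant)
  rw [hmul, expandFun_of_isHolInf one_pos hE, expandFun_of_isHolInf one_pos isHolInf_discriminant,
    qExpansion_discriminant] at h1
  have hE3 : qExpansion 1 ((E₄ : ℍ → ℂ) ^ 3) =
      (ModularCurve.eisenstein4.map (Int.castRingHom ℂ)) ^ 3 := by
    have : ∀ n : ℕ, qExpansion 1 ((E₄ : ℍ → ℂ) ^ n) = (qExpansion 1 (E₄ : ℍ → ℂ)) ^ n := by
      intro n
      induction n with
      | zero => simpa using qExpansion_one 1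
      | succ n ih =>
        rw [pow_succ, qExpansion_mul (((isHolInf_modForm E₄).pow n).analyticAt one_pos)
          ((isHolInf_modForm E₄).analyticAt one_pos), ih, pow_succ]
    rw [this, qExpansion_E₄]
  rw [hE3] at h1
  -- the same identity for `jqModC ℂ`
  set D : PowerSeries ℂ := ModularCurve.dedekindEtaUnit.map (Int.castRingHom ℂ) with hD
  set E : PowerSeries ℂ := ModularCurve.eisenstein4.map (Int.castRingHom ℂ) with hE'
  have hDinv : D * ModularCurve.dedekindEtaUnitInv.map (Int.castRingHom ℂ) = 1 := by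
    rw [hD, ← map_mul, ModularCurve.dedekindEtaUnit_mul_inv, map_one]
  have h2 : ModularCurve.jqModC ℂ * HahnSeries.ofPowerSeries ℤ ℂ (PowerSeries.X * D) =
      HahnSeries.ofPowerSeries ℤ ℂ (E ^ 3) := by
    rw [ModularCurve.jqModC, ModularCurve.jNum, map_mul, map_pow, map_mul, map_mul, map_pow,
      HahnSeries.ofPowerSeries_X]
    have hs : HahnSeries.single (-1 : ℤ) (1 : ℂ) * HahnSeries.single (1 : ℤ) (1 : ℂ) = 1 := by
      rw [HahnSeries.single_mul_single]; simp
    have hDD : HahnSeries.ofPowerSeries ℤ ℂ (ModularCurve.dedekindEtaUnitInv.map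
        (Int.castRingHom ℂ)) * HahnSeries.ofPowerSeries ℤ ℂ D = 1 := by
      rw [← map_mul, mul_comm, hDinv, map_one]
    calc _ = (HahnSeries.single (-1 : ℤ) (1 : ℂ) * HahnSeries.single (1 : ℤ) (1 : ℂ)) *
          (HahnSeries.ofPowerSeries ℤ ℂ E ^ 3) *
          (HahnSeries.ofPowerSeries ℤ ℂ (ModularCurve.dedekindEtaUnitInv.map
            (Int.castRingHom ℂ)) * HahnSeries.ofPowerSeries ℤ ℂ D) := by ring
      _ = _ := by rw [hs, hDD]; ring
  have hne : HahnSeries.ofPowerSeries ℤ ℂ (PowerSeries.X * D) ≠ 0 := by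
    intro h0
    rw [h0, mul_zero] at h2
    have : (HahnSeries.ofPowerSeries ℤ ℂ (E ^ 3)).coeff ((0 : ℕ) : ℤ) = 0 := by rw [← h2]; rfl
    rw [HahnSeries.ofPowerSeries_apply_coeff, PowerSeries.coeff_zero_eq_constantCoeff, map_pow,
      hE', ← PowerSeries.coeff_zero_eq_constantCoeff, PowerSeries.coeff_map,
      PowerSeries.coeff_zero_eq_constantCoeff, ModularCurve.constantCoeff_eisenstein4] at this
    norm_num at this
  exact mul_right_cancel₀ hne (h1.symm.trans h2.symm)

end Fermat.Agent.X0
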