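import Fermat.Agent.X0.Ana.HolRing

/-!
# Ana4: level one invariant functions are polynomials in `j`

A holomorphic `SL(2,ℤ)`-invariant function on the upper half plane with at most a pole of order `m`
at `i∞` is a polynomial of degree `≤ m` in `j = E₄ ^ 3 / Δ`.
-/

open UpperHalfPlane ModularForm EisensteinSeries MatrixGroups Polynomial CongruenceSubgroup
open scoped Manifold Topology

namespace Fermat.Agent.X0

local notation "Δ" => ModularForm.discriminant

theorem discriminant_slash (γ : SL(2, ℤ)) : (Δ ∣[(12 : ℤ)] γ) = Δ :=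
  CuspForm.discriminant.slash_action_eq' _ ⟨γ, rfl⟩

theorem discriminant_pow_slash (m : ℕ) (γ : SL(2, ℤ)) :
    ((fun τ => Δ τ ^ m) ∣[(12 * m : ℤ)] γ) = fun τ => Δ τ ^ m := by
  induction m with
  | zero =>
    simp only [pow_zero, Nat.cast_zero, mul_zero]
    exact is_invariant_one γ
  | succ m ih =>
    have h1 : (fun τ => Δ τ ^ (m + 1)) = (fun τ => Δ τ ^ m) * Δ := by
      ext τ
      simp [pow_succ]
    have h2 : (12 * ((m + 1 : ℕ) : ℤ)) = 12 * m + 12 := by push_cast; ring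
    rw [h1, h2, mul_slash_SL2, ih, discriminant_slash]

theorem invariant_slash_zero (f : ℍ → ℂ) (hinv : ∀ (γ : SL(2, ℤ)) (τ : ℍ), f (γ • τ) = f τ)
    (γ : SL(2, ℤ)) : (f ∣[(0 : ℤ)] γ) = f := by
  ext τ
  rw [SL_slash_apply, hinv]
  simp

theorem mul_discriminant_pow_slash (f : ℍ → ℂ)
    (hinv : ∀ (γ : SL(2, ℤ)) (τ : ℍ), f (γ • τ) = f τ) (m : ℕ) (γ : SL(2, ℤ)) :
    ((fun τ => f τ * Δ τ ^ m) ∣[(12 * m : ℤ)] γ) = fun τ => f τ * Δ τ ^ m := by
  have h1 : (fun τ => f τ * Δ τ ^ m) = f * (fun τ => Δ τ ^ m) := rfl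
  have h2 : (12 * (m : ℤ)) = 0 + 12 * m := by ring
  rw [h1, h2, mul_slash_SL2, invariant_slash_zero f hinv, discriminant_pow_slash]

/-- `f * Δ ^ m` as a modular form of level one. -/
noncomputable def mulDeltaPow (f : ℍ → ℂ) (hf : MDifferentiable 𝓘(ℂ) 𝓘(ℂ) f)
    (hinv : ∀ (γ : SL(2, ℤ)) (τ : ℍ), f (γ • τ) = f τ) (m : ℕ)
    (hbd : IsBoundedAtImInfty (fun τ => f τ * Δ τ ^ m)) : ModularForm 𝒮ℒ (12 * m) where
  toFun τ := f τ * Δ τ ^ m
  slash_action_eq' A hA := by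
    obtain ⟨γ, rfl⟩ := hA
    exact mul_discriminant_pow_slash f hinv m γ
  holo' := hf.mul (CuspForm.discriminant.holo'.pow m)
  bdd_at_cusps' {c} hc := by
    rw [Subgroup.IsArithmetic.isCusp_iff_isCusp_SL2Z] at hc
    rw [OnePoint.isBoundedAt_iff_forall_SL2Z hc]
    intro γ _
    show IsBoundedAtImInfty ((fun τ => f τ * Δ τ ^ m) ∣[(12 * m : ℤ)] γ)
    rw [mul_discriminant_pow_slash f hinv m γ]
    exact hbd

theorem modularForm_eq_discriminant_pow_mul (m : ℕ) :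
    ∀ (k : ℤ), k = 12 * m → ∀ F : ModularForm 𝒮ℒ k,
      ∃ P : ℂ[X], P.natDegree ≤ m ∧ ∀ τ : ℍ, F τ = Δ τ ^ m * P.eval (E₄ τ ^ 3 / Δ τ) := by
  induction m with
  | zero =>
    intro k hk F
    have hk0 : k = 0 := by rw [hk]; simp
    obtain ⟨c, hc⟩ := ModularFormClass.levelOne_weight_zero_const (ModularForm.mcast hk0 F)
    refine ⟨C c, by simp, fun τ => ?_⟩
    have := congrFun hc τ
    simp only [Function.const_apply] at this
    simp only [pow_zero, one_mul, eval_C]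
    rw [← this]
    rfl
  | succ m ih =>
    intro k hk F
    have hw : ((3 * (m + 1) : ℕ) : ℤ) * 4 = k := by rw [hk]; push_cast; ring
    let g : ModularForm 𝒮ℒ k := ModularForm.mcast hw (E₄.pow (3 * (m + 1)))
    have hg0 : (qExpansion 1 g).coeff 0 = 1 := by
      simp only [g, ModularForm.qExpansion_mcast,
        ModularForm.qExpansion_pow one_pos one_mem_strictPeriods_SL]
      rw [PowerSeries.coeff_zero_eq_constantCoeff, map_pow,
        ← PowerSeries.coeff_zero_eq_constantCoeff_apply,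
        E_qExpansion_coeff_zero _ ⟨2, rfl⟩, one_pow]
    obtain ⟨G, hG⟩ := sub_smul_isCuspForm F g hg0
    obtain ⟨P', hdeg, hP'⟩ := ih (k - 12) (by rw [hk]; push_cast; ring)
      (CuspForm.discriminantEquiv G)
    refine ⟨C ((qExpansion 1 F).coeff 0) * X ^ (m + 1) + P', ?_, fun τ => ?_⟩
    · refine (natDegree_add_le _ _).trans (max_le ?_ (hdeg.trans (Nat.le_succ m)))
      exact (natDegree_C_mul_le _ _).trans (natDegree_X_pow_le _)
    · have h1 : F τ = (qExpansion 1 F).coeff 0 * g τ + G τ := by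
        have h0 : (G : ℍ → ℂ) τ = (F - (qExpansion 1 F).coeff 0 • g) τ :=
          congrFun (congrArg DFunLike.coe hG) τ
        have h0' : (F - (qExpansion 1 F).coeff 0 • g) τ =
            F τ - (qExpansion 1 F).coeff 0 * g τ := rfl
        rw [h0, h0']
        ring
      have h2 : G τ = Δ τ * (CuspForm.discriminantEquiv G) τ :=
        (discriminant_mul_discriminantEquiv_apply G τ).symm
      have h3 : g τ = E₄ τ ^ (3 * (m + 1)) := by
        show (E₄.pow (3 * (m + 1))) τ = _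
        rw [ModularForm.coe_pow, Pi.pow_apply]
      rw [h1, h2, hP' τ, h3]
      have hΔ : Δ τ ≠ 0 := discriminant_ne_zero τ
      have hE : E₄ τ ^ 3 = Δ τ * (E₄ τ ^ 3 / Δ τ) := by
        field_simp
      simp only [eval_add, eval_mul, eval_C, eval_pow, eval_X]
      generalize E₄ τ ^ 3 / Δ τ = j at hE ⊢
      rw [pow_mul, hE]
      ring


/-- **Ana4** (function version): a holomorphic `SL(2,ℤ)`-invariant function on `ℍ` such that
`f * Δ ^ m` is bounded at `i∞` is a polynomial of degree `≤ m` in `j = E₄³/Δ`. -/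
theorem exists_polynomial_of_invariant (f : ℍ → ℂ) (hf : MDifferentiable 𝓘(ℂ) 𝓘(ℂ) f)
    (hinv : ∀ (γ : SL(2, ℤ)) (τ : ℍ), f (γ • τ) = f τ) (m : ℕ)
    (hbd : IsBoundedAtImInfty (fun τ => f τ * Δ τ ^ m)) :
    ∃ P : ℂ[X], P.natDegree ≤ m ∧ ∀ τ, f τ = P.eval (E₄ τ ^ 3 / Δ τ) := by
  obtain ⟨P, hdeg, hP⟩ :=
    modularForm_eq_discriminant_pow_mul m _ rfl (mulDeltaPow f hf hinv m hbd)
  refine ⟨P, hdeg, fun τ => ?_⟩
  have h1 : f τ * Δ τ ^ m = Δ τ ^ m * P.eval (E₄ τ ^ 3 / Δ τ) := hP τ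
  have h2 : Δ τ ^ m ≠ 0 := pow_ne_zero m (discriminant_ne_zero τ)
  apply mul_right_cancel₀ h2
  rw [h1, mul_comm]

open Asymptotics Real in
/-- variant with an exponential growth bound. -/
theorem exists_polynomial_of_invariant_of_isBigO (f : ℍ → ℂ)
    (hf : MDifferentiable 𝓘(ℂ) 𝓘(ℂ) f)
    (hinv : ∀ (γ : SL(2, ℤ)) (τ : ℍ), f (γ • τ) = f τ) (m : ℕ)
    (hbd : f =O[atImInfty] fun τ => Real.exp (2 * π * m * τ.im)) :
    ∃ P : ℂ[X], P.natDegree ≤ m ∧ ∀ τ, f τ = P.eval (E₄ τ ^ 3 / Δ τ) := by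
  apply exists_polynomial_of_invariant f hf hinv m
  have h1 : (CuspForm.discriminant : ℍ → ℂ) =O[atImInfty]
      fun τ => Real.exp (-2 * π * τ.im / 1) :=
    CuspFormClass.exp_decay_atImInfty CuspForm.discriminant one_pos one_mem_strictPeriods_SL
  have h2 := hbd.mul (h1.pow m)
  rw [IsBoundedAtImInfty, Filter.BoundedAtFilter]
  refine h2.trans (IsBigO.of_bound 1 (Filter.Eventually.of_forall fun τ => ?_))
  simp only [div_one, Pi.one_apply, norm_one, mul_one]
  rw [← Real.exp_nat_mul, ← Real.exp_add]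
  have : 2 * π * m * τ.im + m * (-2 * π * τ.im) = 0 := by ring
  rw [this, Real.exp_zero, norm_one]

open Asymptotics Real Function.Periodic in
/-- variant: `f * q ^ m` bounded at `i∞`, `q = exp (2 π i τ)`. -/
theorem exists_polynomial_of_invariant_of_qParam (f : ℍ → ℂ)
    (hf : MDifferentiable 𝓘(ℂ) 𝓘(ℂ) f)
    (hinv : ∀ (γ : SL(2, ℤ)) (τ : ℍ), f (γ • τ) = f τ) (m : ℕ)
    (hbd : IsBoundedAtImInfty (fun τ : ℍ => f τ * qParam 1 τ ^ m)) :
    ∃ P : ℂ[X], P.natDegree ≤ m ∧ ∀ τ, f τ = P.eval (E₄ τ ^ 3 / Δ τ) := by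
  apply exists_polynomial_of_invariant_of_isBigO f hf hinv m
  rw [IsBoundedAtImInfty, Filter.BoundedAtFilter] at hbd
  have h1 : (fun τ : ℍ => (qParam 1 (τ : ℂ) ^ m)⁻¹) =O[atImInfty]
      fun τ => Real.exp (2 * π * m * τ.im) := by
    refine IsBigO.of_bound 1 (Filter.Eventually.of_forall fun τ => ?_)
    rw [norm_inv, norm_pow, norm_qParam, one_mul, ← Real.exp_nat_mul, ← Real.exp_neg,
      Real.norm_eq_abs, Real.abs_exp]
    apply le_of_eq
    congr 1
    simp only [coe_im]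
    ring
  have h2 := hbd.mul h1
  refine (IsBigO.of_bound 1 (Filter.Eventually.of_forall fun τ => ?_)).trans
    (h2.trans (IsBigO.of_bound 1 (Filter.Eventually.of_forall fun τ => ?_)))
  · rw [one_mul]
    apply le_of_eq
    congr 1
    have : qParam 1 (τ : ℂ) ^ m ≠ 0 := pow_ne_zero _ (qParam_ne_zero _)
    field_simp
  · simp


/-- **Ana4** (`HolH` version): `jH` is any element of `HolH` whose underlying function is
`E₄ ^ 3 / Δ`. -/
theorem exists_aeval_eq_of_invariant (f : HolH) (hinv : ∀ γ : SL(2, ℤ), compSL γ f = f) (m : ℕ)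
    (hbd : IsBoundedAtImInfty (fun τ => (f : ℍ → ℂ) τ * Δ τ ^ m))
    (jH : HolH) (hj : ∀ τ, (jH : ℍ → ℂ) τ = E₄ τ ^ 3 / Δ τ) :
    ∃ P : ℂ[X], P.natDegree ≤ m ∧ f = Polynomial.aeval jH P := by
  obtain ⟨P, hdeg, hP⟩ := exists_polynomial_of_invariant (f : ℍ → ℂ) f.2
    (fun γ τ => by
      have := congrArg (fun g : HolH => (g : ℍ → ℂ) τ) (hinv γ)
      simpa using this) m hbd
  refine ⟨P, hdeg, ?_⟩
  apply Subtype.ext
  funext τ
  rw [hP τ, ← hj τ]
  show _ = evalH τ (Polynomial.aeval jH P)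
  rw [← Polynomial.aeval_algHom_apply, Polynomial.coe_aeval_eq_eval]
  rfl

end Fermat.Agent.X0
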