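import Fermat.Agent.X0.Ana.QExpJ
import Fermat.Agent.X0.Ana.QExpSubst

/-!
# Laurent expansions at `i∞` of `τ ↦ j ((a τ + b) / d)`
-/

set_option autoImplicit false

noncomputable section

namespace Fermat.Agent.X0

open Function Complex
open UpperHalfPlane hiding I
open scoped Real

variable {a d N e : ℕ} {b : ℤ} {σ : ℍ → ℍ}

/-- `τ ↦ j ((a τ + b) / d)` is meromorphic at `i∞` of period `N` as soon as `e * d = N * a`. -/
theorem isMerInf_jFun_comp_affine (hd : 0 < d) (hN : 0 < N) (he : e * d = N * a) (he0 : 0 < e)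
    (hσ : ∀ τ : ℍ, (σ τ : ℂ) = (a * τ + b) / d) : IsMerInf N (jFun ∘ σ) :=
  (expandFun_comp_affine isMerInf_jFun hd hN he he0 hσ).1

/-- The expansion of `τ ↦ j ((a τ + b) / d)` in `u = exp (2 π i τ / N)` is
`∑ c_k ζ ^ k u ^ (e k)`, where `∑ c_k q ^ k = jqModC ℂ`, `ζ = exp (2 π i b / d)`, `e = N a / d`. -/
theorem expandFun_jFun_comp_affine [NeZero e] (hd : 0 < d) (hN : 0 < N) (he : e * d = N * a)
    (hσ : ∀ τ : ℍ, (σ τ : ℂ) = (a * τ + b) / d) :
    expandFun N (jFun ∘ σ) =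
      ModularCurve.qExpand ℂ e (twistSeries (zetaOf b d) (ModularCurve.jqModC ℂ)) := by
  rw [expandFun_comp_affine_eq isMerInf_jFun hd hN he hσ, expandFun_jFun]

theorem zetaOf_zero (d : ℕ) : zetaOf 0 d = 1 := by simp [zetaOf]

theorem twistSeries_one (F : LaurentSeries ℂ) : twistSeries 1 F = F := by
  ext k; simp

/-- Special case `τ ↦ j (a τ)`: the expansion in `u = exp (2 π i τ / N)` is `jqModC ℂ` in
`u ^ (N a)`. -/
theorem expandFun_jFun_comp_mul [NeZero (N * a)] (hN : 0 < N)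
    (hσ : ∀ τ : ℍ, (σ τ : ℂ) = a * τ) :
    expandFun N (jFun ∘ σ) = ModularCurve.qExpand ℂ (N * a) (ModularCurve.jqModC ℂ) := by
  have hσ' : ∀ τ : ℍ, (σ τ : ℂ) = (a * τ + (0 : ℤ)) / (1 : ℕ) := by
    intro τ; rw [hσ τ]; simp
  rw [expandFun_jFun_comp_affine (e := N * a) (d := 1) (b := 0) one_pos hN (by ring) hσ',
    zetaOf_zero, twistSeries_one]

/-- The root of unity `zetaOf b d` has order dividing `d`. -/
theorem zetaOf_pow (b : ℤ) {d : ℕ} (hd : 0 < d) : zetaOf b d ^ d = 1 := by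
  have hdc : (d : ℂ) ≠ 0 := by exact_mod_cast hd.ne'
  rw [zetaOf, ← Complex.exp_nat_mul]
  have : (d : ℂ) * (2 * π * I * b / d) = b * (2 * π * I) := by field_simp
  rw [this, Complex.exp_int_mul_two_pi_mul_I]

end Fermat.Agent.X0
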