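import Mathlib

/-!
# Ana1: the ring of holomorphic functions on the upper half plane

`HolH` (a `ℂ`-subalgebra of `ℍ → ℂ`), it is a domain; `MerH = FractionRing HolH`;
composition with Möbius transformations `compGL`, `compSL` and the induced automorphisms of `MerH`;
the valuations `ordAt τ₀ : Valuation MerH ℤᵐ⁰` (order of vanishing at `τ₀`).
-/

open UpperHalfPlane
open scoped Manifold MatrixGroups Topology WithZero

namespace Fermat.Agent.X0

/-- The ring of holomorphic functions on the upper half plane, as a `ℂ`-subalgebra of `ℍ → ℂ`. -/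
def HolH : Subalgebra ℂ (ℍ → ℂ) where
  carrier := {f | MDifferentiable 𝓘(ℂ) 𝓘(ℂ) f}
  mul_mem' hf hg := hf.mul hg
  one_mem' := mdifferentiable_const
  add_mem' hf hg := hf.add hg
  zero_mem' := mdifferentiable_const
  algebraMap_mem' _ := mdifferentiable_const

theorem mem_HolH {f : ℍ → ℂ} : f ∈ HolH ↔ MDifferentiable 𝓘(ℂ) 𝓘(ℂ) f := Iff.rfl

instance : IsDomain HolH := by
  have : NoZeroDivisors HolH := ⟨fun {f g} h => by
    have h' : (f : ℍ → ℂ) * (g : ℍ → ℂ) = 0 := congrArg Subtype.val h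
    rcases (UpperHalfPlane.mul_eq_zero_iff f.2 g.2).mp h' with h1 | h1
    · exact Or.inl (Subtype.ext h1)
    · exact Or.inr (Subtype.ext h1)⟩
  have : Nontrivial HolH := ⟨⟨0, 1, fun h => by
    have := congrFun (congrArg Subtype.val h) I
    simp at this⟩⟩
  exact NoZeroDivisors.to_isDomain _

/-- The field of (global quotients of) meromorphic functions on the upper half plane. -/
abbrev MerH : Type := FractionRing HolH

/-- Composition with the Möbius action of `g ∈ GL(2,ℝ)⁺`, as a `ℂ`-algebra automorphism of `HolH`: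
`compGL g f = f ∘ (g • ·)`. -/
noncomputable def compGL (g : GL(2, ℝ)⁺) : HolH ≃ₐ[ℂ] HolH where
  toFun f := ⟨fun τ => f.1 (g • τ), f.2.comp (mdifferentiable_smul (g := g.1) g.2)⟩
  invFun f := ⟨fun τ => f.1 (g⁻¹ • τ), f.2.comp (mdifferentiable_smul (g := (g⁻¹).1) (g⁻¹).2)⟩
  left_inv f := by
    ext τ
    simp [smul_smul]
  right_inv f := by
    ext τ
    simp [smul_smul]
  map_mul' f g := rfl
  map_add' f g := rfl
  commutes' c := rfl

@[simp]
theorem compGL_apply (g : GL(2, ℝ)⁺) (f : HolH) (τ : ℍ) :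
    (compGL g f : ℍ → ℂ) τ = (f : ℍ → ℂ) (g • τ) := rfl

theorem compGL_one : compGL 1 = AlgEquiv.refl := by
  ext f τ
  simp

theorem compGL_mul (g h : GL(2, ℝ)⁺) : compGL (g * h) = (compGL g).trans (compGL h) := by
  ext f τ
  simp [mul_smul]

theorem compGL_symm (g : GL(2, ℝ)⁺) : (compGL g).symm = compGL g⁻¹ := rfl

/-- The induced automorphism of the fraction field `MerH`. -/
noncomputable def compGLMer (g : GL(2, ℝ)⁺) : MerH ≃ₐ[ℂ] MerH :=
  IsFractionRing.algEquivOfAlgEquiv (compGL g)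

@[simp]
theorem compGLMer_algebraMap (g : GL(2, ℝ)⁺) (f : HolH) :
    compGLMer g (algebraMap HolH MerH f) = algebraMap HolH MerH (compGL g f) :=
  IsFractionRing.algEquivOfAlgEquiv_algebraMap _ _

theorem compGLMer_one : compGLMer 1 = AlgEquiv.refl := by
  apply AlgEquiv.coe_ringEquiv_injective
  apply RingEquiv.toRingHom_injective
  apply IsFractionRing.ringHom_ext (A := HolH)
  intro f
  show compGLMer 1 (algebraMap HolH MerH f) = algebraMap HolH MerH f
  rw [compGLMer_algebraMap, compGL_one]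
  rfl

theorem compGLMer_mul (g h : GL(2, ℝ)⁺) :
    compGLMer (g * h) = (compGLMer g).trans (compGLMer h) := by
  apply AlgEquiv.coe_ringEquiv_injective
  apply RingEquiv.toRingHom_injective
  apply IsFractionRing.ringHom_ext (A := HolH)
  intro f
  show compGLMer (g * h) (algebraMap HolH MerH f) =
    compGLMer h (compGLMer g (algebraMap HolH MerH f))
  rw [compGLMer_algebraMap, compGLMer_algebraMap, compGLMer_algebraMap, compGL_mul]
  rfl

/-- `n ↦ exp (-n)`, `⊤ ↦ 0`. -/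
noncomputable def expNeg : ℕ∞ → ℤᵐ⁰
  | ⊤ => 0
  | (n : ℕ) => WithZero.exp (-(n : ℤ))

@[simp] theorem expNeg_top : expNeg ⊤ = 0 := rfl

@[simp] theorem expNeg_coe (n : ℕ) : expNeg (n : ℕ∞) = WithZero.exp (-(n : ℤ)) := rfl

@[simp] theorem expNeg_zero : expNeg 0 = 1 := by
  have : (0 : ℕ∞) = ((0 : ℕ) : ℕ∞) := rfl
  rw [this, expNeg_coe]
  simp

theorem expNeg_eq_zero_iff {a : ℕ∞} : expNeg a = 0 ↔ a = ⊤ := by
  induction a using ENat.recTopCoe with
  | top => simp
  | coe n => simp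

theorem expNeg_add (a b : ℕ∞) : expNeg (a + b) = expNeg a * expNeg b := by
  induction a using ENat.recTopCoe with
  | top => simp
  | coe n =>
    induction b using ENat.recTopCoe with
    | top => simp
    | coe m =>
      rw [← Nat.cast_add, expNeg_coe, expNeg_coe, expNeg_coe, ← WithZero.exp_add]
      congr 1
      push_cast
      ring

theorem expNeg_antitone : Antitone expNeg := by
  intro a b hab
  induction b using ENat.recTopCoe with
  | top => simp
  | coe m =>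
    induction a using ENat.recTopCoe with
    | top => simp at hab
    | coe n =>
      rw [expNeg_coe, expNeg_coe, WithZero.exp_le_exp]
      have : n ≤ m := by exact_mod_cast hab
      omega

theorem expNeg_injective : Function.Injective expNeg := by
  intro a b hab
  induction a using ENat.recTopCoe with
  | top =>
    rw [expNeg_top, eq_comm, expNeg_eq_zero_iff] at hab
    exact hab.symm
  | coe n =>
    induction b using ENat.recTopCoe with
    | top => simp at hab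
    | coe m =>
      rw [expNeg_coe, expNeg_coe, WithZero.exp_inj] at hab
      have : n = m := by omega
      rw [this]


/-- the function on `ℂ` attached to `f : HolH` (junk outside the upper half plane). -/
noncomputable def toFunC (f : HolH) : ℂ → ℂ := (f : ℍ → ℂ) ∘ ofComplex

theorem toFunC_coe (f : HolH) (τ : ℍ) : toFunC f τ = (f : ℍ → ℂ) τ := by
  simp [toFunC]

theorem toFunC_analyticOnNhd (f : HolH) : AnalyticOnNhd ℂ (toFunC f) {z | 0 < z.im} :=
  (UpperHalfPlane.mdifferentiable_iff.mp f.2).analyticOnNhd isOpen_upperHalfPlaneSet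

theorem toFunC_analyticAt (f : HolH) (τ : ℍ) : AnalyticAt ℂ (toFunC f) τ :=
  toFunC_analyticOnNhd f τ τ.im_pos

theorem toFunC_mul (f g : HolH) : toFunC (f * g) = toFunC f * toFunC g := rfl

theorem toFunC_add (f g : HolH) : toFunC (f + g) = toFunC f + toFunC g := rfl

/-- order of vanishing of `f : HolH` at `τ₀`. -/
noncomputable def ordH (τ₀ : ℍ) (f : HolH) : ℕ∞ := analyticOrderAt (toFunC f) τ₀

theorem ordH_eq_top_iff (τ₀ : ℍ) (f : HolH) : ordH τ₀ f = ⊤ ↔ f = 0 := by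
  constructor
  · intro h
    rw [ordH, analyticOrderAt_eq_top] at h
    have hpre : IsPreconnected {z : ℂ | 0 < z.im} :=
      (Complex.isConnected_of_upperHalfPlane subset_rfl (by grind)).isPreconnected
    have := (toFunC_analyticOnNhd f).eqOn_zero_of_preconnected_of_eventuallyEq_zero hpre
      τ₀.im_pos h
    ext τ
    rw [← toFunC_coe]
    exact this τ.im_pos
  · rintro rfl
    rw [ordH, analyticOrderAt_eq_top]
    exact Filter.Eventually.of_forall fun z => rfl

theorem ordH_mul (τ₀ : ℍ) (f g : HolH) : ordH τ₀ (f * g) = ordH τ₀ f + ordH τ₀ g := by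
  rw [ordH, toFunC_mul]
  exact analyticOrderAt_mul (toFunC_analyticAt f τ₀) (toFunC_analyticAt g τ₀)

theorem ordH_add (τ₀ : ℍ) (f g : HolH) : min (ordH τ₀ f) (ordH τ₀ g) ≤ ordH τ₀ (f + g) := by
  rw [ordH, ordH, ordH, toFunC_add]
  exact le_analyticOrderAt_add

theorem ordH_eq_zero_iff (τ₀ : ℍ) (f : HolH) : ordH τ₀ f = 0 ↔ (f : ℍ → ℂ) τ₀ ≠ 0 := by
  rw [ordH, analyticOrderAt_eq_zero, toFunC_coe]
  constructor
  · rintro (h | h)
    · exact absurd (toFunC_analyticAt f τ₀) h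
    · exact h
  · exact fun h => Or.inr h

theorem ordH_one (τ₀ : ℍ) : ordH τ₀ 1 = 0 := by
  rw [ordH_eq_zero_iff]
  exact one_ne_zero

/-- the valuation on `HolH` given by the order of vanishing at `τ₀`. -/
noncomputable def ordAtHol (τ₀ : ℍ) : Valuation HolH ℤᵐ⁰ where
  toFun f := expNeg (ordH τ₀ f)
  map_zero' := by
    rw [(ordH_eq_top_iff τ₀ 0).mpr rfl, expNeg_top]
  map_one' := by
    rw [ordH_one, expNeg_zero]
  map_mul' f g := by
    rw [ordH_mul, expNeg_add]
  map_add_le_max' f g := by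
    have := expNeg_antitone (ordH_add τ₀ f g)
    rwa [expNeg_antitone.map_min] at this

theorem ordAtHol_apply (τ₀ : ℍ) (f : HolH) : ordAtHol τ₀ f = expNeg (ordH τ₀ f) := rfl

theorem nonZeroDivisors_le_primeCompl (τ₀ : ℍ) :
    nonZeroDivisors HolH ≤ (ordAtHol τ₀).supp.primeCompl := by
  intro f hf
  have hf0 : f ≠ 0 := nonZeroDivisors.ne_zero hf
  show f ∉ (ordAtHol τ₀).supp
  rw [Valuation.mem_supp_iff, ordAtHol_apply, expNeg_eq_zero_iff, ordH_eq_top_iff]
  exact hf0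

/-- the valuation on `MerH` given by the order at `τ₀`. -/
noncomputable def ordAt (τ₀ : ℍ) : Valuation MerH ℤᵐ⁰ :=
  (ordAtHol τ₀).extendToLocalization (nonZeroDivisors_le_primeCompl τ₀) MerH

@[simp]
theorem ordAt_algebraMap (τ₀ : ℍ) (f : HolH) :
    ordAt τ₀ (algebraMap HolH MerH f) = expNeg (ordH τ₀ f) :=
  Valuation.extendToLocalization_apply_map_apply _ _ _ _


theorem ordAt_algebraMap_eq_exp_iff (τ₀ : ℍ) (f : HolH) (k : ℕ) :
    ordAt τ₀ (algebraMap HolH MerH f) = WithZero.exp (-(k : ℤ)) ↔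
      analyticOrderAt ((f : ℍ → ℂ) ∘ ofComplex) τ₀ = k := by
  rw [ordAt_algebraMap, ← expNeg_coe, expNeg_injective.eq_iff]
  rfl

theorem ordAt_algebraMap_le_one (τ₀ : ℍ) (f : HolH) : ordAt τ₀ (algebraMap HolH MerH f) ≤ 1 := by
  rw [ordAt_algebraMap, ← expNeg_zero]
  exact expNeg_antitone zero_le

theorem ordAt_algebraMap_eq_one_iff (τ₀ : ℍ) (f : HolH) :
    ordAt τ₀ (algebraMap HolH MerH f) = 1 ↔ (f : ℍ → ℂ) τ₀ ≠ 0 := by
  rw [ordAt_algebraMap, ← expNeg_zero, expNeg_injective.eq_iff, ordH_eq_zero_iff]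

theorem ordAt_algebraMap_lt_one_iff (τ₀ : ℍ) (f : HolH) :
    ordAt τ₀ (algebraMap HolH MerH f) < 1 ↔ (f : ℍ → ℂ) τ₀ = 0 := by
  rw [lt_iff_le_and_ne, ne_eq, ordAt_algebraMap_eq_one_iff, not_not]
  exact ⟨fun h => h.2, fun h => ⟨ordAt_algebraMap_le_one τ₀ f, h⟩⟩

theorem ordAt_const (τ₀ : ℍ) (c : ℂ) (hc : c ≠ 0) : ordAt τ₀ (algebraMap ℂ MerH c) = 1 := by
  rw [IsScalarTower.algebraMap_apply ℂ HolH MerH, ordAt_algebraMap_eq_one_iff]
  exact hc

theorem ordH_compGL (τ₀ : ℍ) (g : GL(2, ℝ)⁺) (f : HolH) :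
    ordH τ₀ (compGL g f) = ordH (g • τ₀) f := by
  have h1 : toFunC (compGL g f) = toFunC f ∘ (fun z : ℂ => ((g.1 • ofComplex z : ℍ) : ℂ)) := by
    ext z
    simp [toFunC]
    rfl
  rw [ordH, h1, analyticOrderAt_comp_of_deriv_ne_zero (τ₀.analyticAt_smul g.2)
    (τ₀.deriv_smul_ne_zero g.2)]
  simp [ordH]
  rfl

theorem ordAt_compGLMer (τ₀ : ℍ) (g : GL(2, ℝ)⁺) (x : MerH) :
    ordAt τ₀ (compGLMer g x) = ordAt (g • τ₀) x := by
  obtain ⟨a, b, hb, rfl⟩ := IsFractionRing.div_surjective HolH x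
  rw [map_div₀, map_div₀, map_div₀, compGLMer_algebraMap, compGLMer_algebraMap, ordAt_algebraMap,
    ordAt_algebraMap, ordAt_algebraMap, ordAt_algebraMap, ordH_compGL, ordH_compGL]


/-- the embedding `SL(2,ℤ) → GL(2,ℝ)⁺`. -/
noncomputable def slToGLPos : SL(2, ℤ) →* GL(2, ℝ)⁺ :=
  Matrix.SpecialLinearGroup.toGLPos.comp (Matrix.SpecialLinearGroup.map (Int.castRingHom ℝ))

theorem slToGLPos_smul (γ : SL(2, ℤ)) (τ : ℍ) : slToGLPos γ • τ = γ • τ := rfl

/-- composition with `γ ∈ SL(2,ℤ)`: `compSL γ f = f ∘ (γ • ·)`. -/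
noncomputable def compSL (γ : SL(2, ℤ)) : HolH ≃ₐ[ℂ] HolH := compGL (slToGLPos γ)

@[simp]
theorem compSL_apply (γ : SL(2, ℤ)) (f : HolH) (τ : ℍ) :
    (compSL γ f : ℍ → ℂ) τ = (f : ℍ → ℂ) (γ • τ) := rfl

theorem compSL_one : compSL 1 = AlgEquiv.refl := by
  rw [compSL, map_one, compGL_one]

theorem compSL_mul (γ δ : SL(2, ℤ)) : compSL (γ * δ) = (compSL γ).trans (compSL δ) := by
  rw [compSL, map_mul, compGL_mul]
  rfl

/-- the induced automorphism of `MerH`. -/
noncomputable def compSLMer (γ : SL(2, ℤ)) : MerH ≃ₐ[ℂ] MerH := compGLMer (slToGLPos γ)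

@[simp]
theorem compSLMer_algebraMap (γ : SL(2, ℤ)) (f : HolH) :
    compSLMer γ (algebraMap HolH MerH f) = algebraMap HolH MerH (compSL γ f) :=
  compGLMer_algebraMap _ _

theorem compSLMer_one : compSLMer 1 = AlgEquiv.refl := by
  rw [compSLMer, map_one, compGLMer_one]

theorem compSLMer_mul (γ δ : SL(2, ℤ)) :
    compSLMer (γ * δ) = (compSLMer γ).trans (compSLMer δ) := by
  rw [compSLMer, map_mul, compGLMer_mul]
  rfl

theorem ordAt_compSLMer (τ₀ : ℍ) (γ : SL(2, ℤ)) (x : MerH) :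
    ordAt τ₀ (compSLMer γ x) = ordAt (γ • τ₀) x :=
  ordAt_compGLMer τ₀ _ x

/-- an element of `GL(2,ℝ)⁺` from a real matrix of positive determinant. -/
noncomputable def glPosOfMatrix (M : Matrix (Fin 2) (Fin 2) ℝ) (h : 0 < M.det) : GL(2, ℝ)⁺ :=
  ⟨Matrix.GeneralLinearGroup.mkOfDetNeZero M h.ne', by
    rw [Matrix.mem_glpos]
    simpa using h⟩

theorem coe_glPosOfMatrix_smul (M : Matrix (Fin 2) (Fin 2) ℝ) (h : 0 < M.det) (τ : ℍ) :
    ((glPosOfMatrix M h • τ : ℍ) : ℂ) =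
      ((M 0 0 : ℂ) * τ + (M 0 1 : ℂ)) / ((M 1 0 : ℂ) * τ + (M 1 1 : ℂ)) := by
  have hpos : 0 < ((glPosOfMatrix M h).1).det.val := by
    have := (glPosOfMatrix M h).2
    rwa [Matrix.mem_glpos] at this
  show (((glPosOfMatrix M h).1 • τ : ℍ) : ℂ) = _
  rw [coe_smul_of_det_pos hpos]
  rfl

/-- evaluation at a point. -/
def evalH (τ : ℍ) : HolH →ₐ[ℂ] ℂ where
  toFun f := (f : ℍ → ℂ) τ
  map_one' := rfl
  map_mul' _ _ := rfl
  map_zero' := rfl
  map_add' _ _ := rfl
  commutes' _ := rfl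

theorem ordH_eq_one_of_deriv_ne_zero (τ₀ : ℍ) (f : HolH) (h0 : (f : ℍ → ℂ) τ₀ = 0)
    (h1 : deriv ((f : ℍ → ℂ) ∘ ofComplex) τ₀ ≠ 0) : ordH τ₀ f = 1 :=
  (toFunC_analyticAt f τ₀).analyticOrderAt_eq_one_of_zero_deriv_ne_zero
    (by rw [toFunC_coe]; exact h0) h1

end Fermat.Agent.X0
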