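import Fermat.Agent.X0.Ana.HolRing
import Fermat.Agent.X0.Ana.JFunction

/-!
# The `j`-function as an element of `HolH` and of `MerH`

`jH : HolH`, `xM : MerH`, their `SL(2, ℤ)`-invariance, transcendence over `ℂ`, the values of
the valuations `ordAt τ₀` on `xM - c`, and the stabilisers of `i` and `ρ`.
-/

set_option autoImplicit false

open UpperHalfPlane ModularForm EisensteinSeries MatrixGroups Filter Function
open scoped Real Topology Manifold WithZero

namespace Fermat.Agent.X0

/-! ### `j` as a holomorphic function -/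

/-- The `j`-function as an element of the ring of holomorphic functions on `ℍ`. -/
noncomputable def jH : HolH := ⟨jFun, jFun_mdifferentiable⟩

@[simp]
theorem jH_apply (τ : ℍ) : (jH : ℍ → ℂ) τ = jFun τ := rfl

theorem coe_jH : (jH : ℍ → ℂ) = jFun := rfl

theorem compSL_jH (γ : SL(2, ℤ)) : compSL γ jH = jH := by
  ext τ
  rw [compSL_apply, jH_apply, jH_apply, jFun_smul]

/-- The `j`-function as an element of the field `MerH`. -/
noncomputable def xM : MerH := algebraMap HolH MerH jH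

theorem xM_def : xM = algebraMap HolH MerH jH := rfl

theorem compSLMer_xM (γ : SL(2, ℤ)) : compSLMer γ xM = xM := by
  rw [xM, compSLMer_algebraMap, compSL_jH]

/-! ### Transcendence -/

theorem evalH_aeval_jH (τ : ℍ) (P : Polynomial ℂ) :
    ((Polynomial.aeval jH P : HolH) : ℍ → ℂ) τ = P.eval (jFun τ) := by
  have h := Polynomial.aeval_algHom_apply (evalH τ) jH P
  have h2 : evalH τ jH = jFun τ := rfl
  rw [h2] at h
  rw [← Polynomial.coe_aeval_eq_eval, h]
  rfl

theorem aeval_jH_injective : Function.Injective (Polynomial.aeval (R := ℂ) jH) := by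
  rw [injective_iff_map_eq_zero]
  intro P hP
  apply Polynomial.funext
  intro c
  obtain ⟨τ, rfl⟩ := jFun_surjective c
  rw [← evalH_aeval_jH, hP, Polynomial.eval_zero]
  rfl

theorem transcendental_jH : Transcendental ℂ jH :=
  transcendental_iff_injective.mpr aeval_jH_injective

theorem transcendental_xM : Transcendental ℂ xM :=
  (transcendental_algebraMap_iff (IsFractionRing.injective HolH MerH)).mpr transcendental_jH

/-! ### The valuations `ordAt τ₀` on `xM - c` -/

theorem xM_sub_const (c : ℂ) :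
    xM - algebraMap ℂ MerH c = algebraMap HolH MerH (jH - algebraMap ℂ HolH c) := by
  rw [map_sub, ← IsScalarTower.algebraMap_apply ℂ HolH MerH, xM]

theorem coe_jH_sub_const (c : ℂ) :
    ((jH - algebraMap ℂ HolH c : HolH) : ℍ → ℂ) ∘ ofComplex
      = fun w : ℂ ↦ jFun (ofComplex w) - c := rfl

/-- At a point `τ₀` with `j τ₀ ≠ 0, 1728` the function `j - j τ₀` has a simple zero. -/
theorem ordAt_xM_sub_of_ne (τ₀ : ℍ) (h0 : jFun τ₀ ≠ 0) (h1 : jFun τ₀ ≠ 1728) :
    ordAt τ₀ (xM - algebraMap ℂ MerH (jFun τ₀)) = WithZero.exp (-1) := by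
  have h := (ordAt_algebraMap_eq_exp_iff τ₀ (jH - algebraMap ℂ HolH (jFun τ₀)) 1).mpr (by
    rw [coe_jH_sub_const]
    exact_mod_cast analyticOrderAt_jFun_sub_of_ne h0 h1)
  rw [xM_sub_const, h]
  rfl

/-- At a point `τ₀` with `j τ₀ = 1728` the function `j - 1728` has a double zero. -/
theorem ordAt_xM_sub_1728 (τ₀ : ℍ) (h : jFun τ₀ = 1728) :
    ordAt τ₀ (xM - algebraMap ℂ MerH 1728) = WithZero.exp (-2) := by
  have h' := (ordAt_algebraMap_eq_exp_iff τ₀ (jH - algebraMap ℂ HolH 1728) 2).mpr (by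
    rw [coe_jH_sub_const]
    exact_mod_cast analyticOrderAt_jFun_sub_1728 h)
  rw [xM_sub_const, h']
  rfl

/-- At a point `τ₀` with `j τ₀ = 0` the function `j` has a triple zero. -/
theorem ordAt_xM_of_eq_zero (τ₀ : ℍ) (h : jFun τ₀ = 0) :
    ordAt τ₀ xM = WithZero.exp (-3) := by
  have h' := (ordAt_algebraMap_eq_exp_iff τ₀ jH 3).mpr (by
    exact_mod_cast analyticOrderAt_jFun_of_eq_zero h)
  rw [xM, h']
  rfl

theorem ordAt_xM_sub_zero_of_eq_zero (τ₀ : ℍ) (h : jFun τ₀ = 0) :
    ordAt τ₀ (xM - algebraMap ℂ MerH 0) = WithZero.exp (-3) := by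
  rw [map_zero, sub_zero, ordAt_xM_of_eq_zero τ₀ h]

theorem ordAt_I_xM_sub_1728 :
    ordAt UpperHalfPlane.I (xM - algebraMap ℂ MerH 1728) = WithZero.exp (-2) :=
  ordAt_xM_sub_1728 _ jFun_I

theorem ordAt_rho_xM : ordAt rho xM = WithZero.exp (-3) :=
  ordAt_xM_of_eq_zero _ jFun_rho

theorem exists_ordAt_xM_sub_eq (c : ℂ) (h0 : c ≠ 0) (h1 : c ≠ 1728) :
    ∃ τ₀ : ℍ, jFun τ₀ = c ∧ ordAt τ₀ (xM - algebraMap ℂ MerH c) = WithZero.exp (-1) := by
  obtain ⟨τ₀, rfl⟩ := jFun_surjective c
  exact ⟨τ₀, rfl, ordAt_xM_sub_of_ne τ₀ h0 h1⟩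

/-- `τ₀` is a centre of `xM - j τ₀`. -/
theorem ordAt_xM_sub_lt_one (τ₀ : ℍ) (c : ℂ) (h : jFun τ₀ = c) :
    ordAt τ₀ (xM - algebraMap ℂ MerH c) < 1 := by
  rw [xM_sub_const, ordAt_algebraMap_lt_one_iff]
  show jFun τ₀ - c = 0
  rw [h, sub_self]

/-- If `j τ₀ ≠ c` then `xM - c` is a unit at `τ₀`. -/
theorem ordAt_xM_sub_eq_one (τ₀ : ℍ) (c : ℂ) (h : jFun τ₀ ≠ c) :
    ordAt τ₀ (xM - algebraMap ℂ MerH c) = 1 := by
  rw [xM_sub_const, ordAt_algebraMap_eq_one_iff]
  show jFun τ₀ - c ≠ 0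
  exact sub_ne_zero.mpr h

theorem ordAt_xM_le_one (τ₀ : ℍ) : ordAt τ₀ xM ≤ 1 := ordAt_algebraMap_le_one τ₀ jH

/-! ### The stabilisers of `i` and `ρ` -/

theorem modularS_mul_S : ModularGroup.S * ModularGroup.S = -1 := by
  ext i j
  fin_cases i <;> fin_cases j <;>
    simp [ModularGroup.coe_S, Matrix.mul_apply, Fin.sum_univ_two]

theorem modularST_cube :
    (ModularGroup.S * ModularGroup.T) * (ModularGroup.S * ModularGroup.T)
      * (ModularGroup.S * ModularGroup.T) = -1 := by
  ext i j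
  simp only [Matrix.SpecialLinearGroup.coe_mul, Matrix.SpecialLinearGroup.coe_neg,
    Matrix.SpecialLinearGroup.coe_one, ModularGroup.coe_S, ModularGroup.coe_T]
  fin_cases i <;> fin_cases j <;> simp [Matrix.mul_apply, Fin.sum_univ_two]

theorem compSL_neg (γ : SL(2, ℤ)) : compSL (-γ) = compSL γ := by
  ext f τ
  rw [compSL_apply, compSL_apply, ModularGroup.SL_neg_smul]

theorem compSL_neg_one : compSL (-1) = AlgEquiv.refl := by
  rw [compSL_neg, compSL_one]

theorem compSLMer_neg (γ : SL(2, ℤ)) : compSLMer (-γ) = compSLMer γ := by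
  apply AlgEquiv.coe_ringEquiv_injective
  apply RingEquiv.toRingHom_injective
  apply IsFractionRing.ringHom_ext (A := HolH)
  intro f
  show compSLMer (-γ) (algebraMap HolH MerH f) = compSLMer γ (algebraMap HolH MerH f)
  rw [compSLMer_algebraMap, compSLMer_algebraMap, compSL_neg]

theorem compSLMer_neg_one : compSLMer (-1) = AlgEquiv.refl := by
  rw [compSLMer_neg, compSLMer_one]

/-- `compSLMer S` is an involution of `MerH`. -/
theorem compSLMer_S_sq (x : MerH) :
    compSLMer ModularGroup.S (compSLMer ModularGroup.S x) = x := by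
  have h := compSLMer_mul ModularGroup.S ModularGroup.S
  rw [modularS_mul_S, compSLMer_neg_one] at h
  have h2 := DFunLike.congr_fun h x
  exact h2.symm

/-- `compSLMer (S * T)` has order dividing three. -/
theorem compSLMer_ST_cube (x : MerH) :
    compSLMer (ModularGroup.S * ModularGroup.T) (compSLMer (ModularGroup.S * ModularGroup.T)
      (compSLMer (ModularGroup.S * ModularGroup.T) x)) = x := by
  have h := compSLMer_mul ((ModularGroup.S * ModularGroup.T) * (ModularGroup.S * ModularGroup.T))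
    (ModularGroup.S * ModularGroup.T)
  rw [modularST_cube, compSLMer_neg_one, compSLMer_mul] at h
  have h2 := DFunLike.congr_fun h x
  exact h2.symm

theorem ordAt_I_compSLMer_S (x : MerH) :
    ordAt UpperHalfPlane.I (compSLMer ModularGroup.S x) = ordAt UpperHalfPlane.I x := by
  rw [ordAt_compSLMer, S_smul_I]

theorem ordAt_rho_compSLMer_ST (x : MerH) :
    ordAt rho (compSLMer (ModularGroup.S * ModularGroup.T) x) = ordAt rho x := by
  rw [ordAt_compSLMer, ST_smul_rho]

end Fermat.Agent.X0
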