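import Fermat.Agent.X0.Ana.QExpSubst
import Fermat.Agent.X0.Ana.HolRing

/-!
# Expansions at `i∞`: translations, change of period, and the bundled version on `HolH`

* `expandFun_comp_shift`: for `f` meromorphic at `i∞` of period `N` and `σ τ = τ + s`, the
  coefficient of index `k` of `f ∘ σ` is `exp (2 π i s / N) ^ k` times that of `f`.
* `IsMerInf.of_periodic_one`: a function meromorphic at `i∞` of period `N` which is `1`-periodic
  is meromorphic at `i∞` of period `1`.
* `merInfH N : Subalgebra ℂ HolH`, `expandH N : merInfH N →ₐ[ℂ] LaurentSeries ℂ`, injective.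
-/

set_option autoImplicit false

noncomputable section

namespace Fermat.Agent.X0

open Function Complex Filter Topology
open UpperHalfPlane hiding I
open scoped Manifold Real

section shift

variable {f : ℍ → ℂ} {N : ℕ} {s : ℤ} {σ : ℍ → ℍ}

theorem qParam_comp_shift (hN : 0 < N) (hσ : ∀ τ : ℍ, (σ τ : ℂ) = τ + s) (τ : ℍ) :
    Periodic.qParam N (σ τ) = zetaOf s N * Periodic.qParam N τ := by
  have hNc : (N : ℂ) ≠ 0 := by exact_mod_cast hN.ne'
  simp only [Periodic.qParam, zetaOf, hσ τ, ofReal_natCast]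
  rw [← Complex.exp_add]
  congr 1
  field_simp
  ring

theorem mdiff_comp_shift (hf : MDiff f) (hσ : ∀ τ : ℍ, (σ τ : ℂ) = τ + s) : MDiff (f ∘ σ) :=
  mdiff_comp_affine (a := 1) (d := 1) (b := s) hf (fun τ => by simp [hσ τ])

theorem periodic_comp_shift (hf : Periodic (f ∘ ofComplex) (N : ℝ))
    (hσ : ∀ τ : ℍ, (σ τ : ℂ) = τ + s) : Periodic ((f ∘ σ) ∘ ofComplex) (N : ℝ) := by
  have hσ' : ∀ τ : ℍ, (σ τ : ℂ) = ((1 : ℕ) * (τ : ℂ) + s) / (1 : ℕ) := fun τ => by simp [hσ τ]
  intro z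
  simp only [Function.comp_apply]
  by_cases hz : 0 < z.im
  · have hz' : 0 < (z + (N : ℝ)).im := by simpa using hz
    rw [ofComplex_apply_of_im_pos hz, ofComplex_apply_of_im_pos hz', sigma_eq_ofComplex hσ',
      sigma_eq_ofComplex hσ']
    have := hf (((1 : ℕ) * z + s) / (1 : ℕ))
    simp only [Function.comp_apply] at this
    rw [← this]
    congr 2
    simp only [Nat.cast_one, one_mul, div_one, ofReal_natCast]
    ring
  · have hz' : ¬ 0 < (z + (N : ℝ)).im := by simpa using hz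
    rw [ofComplex_apply_of_im_nonpos (not_lt.mp hz), ofComplex_apply_of_im_nonpos (not_lt.mp hz')]

theorem hasSum_comp_shift (hf : IsMerInf N f) (hN : 0 < N) (hσ : ∀ τ : ℍ, (σ τ : ℂ) = τ + s)
    {m : ℕ} (hm : IsBoundedAtImInfty (qPar N ^ m * f)) (τ : ℍ) :
    HasSum (fun k => (zetaOf s N ^ (-(m : ℤ)) * (qExpansion N (qPar N ^ m * f)).coeff k *
        zetaOf s N ^ k) • Periodic.qParam N τ ^ k)
      (qPar N τ ^ m * (f ∘ σ) τ) := by
  have hN' : (0 : ℝ) < N := by exact_mod_cast hN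
  set ζ := zetaOf s N with hζ
  set v := Periodic.qParam N τ with hv
  have hζ0 : ζ ≠ 0 := zetaOf_ne_zero s N
  have hg := hf.isHolInf hN' hm
  have h1 := hasSum_qExpansion hN' hg.periodic hg.mdiff hg.bdd (σ τ)
  have hq : Periodic.qParam N (σ τ) = ζ * v := qParam_comp_shift hN hσ τ
  simp only [Pi.mul_apply, Pi.pow_apply, qPar_apply, hq] at h1
  have h2 := h1.mul_left (ζ ^ (-(m : ℤ)))
  have hval : ζ ^ (-(m : ℤ)) * ((ζ * v) ^ m * f (σ τ)) = qPar N τ ^ m * (f ∘ σ) τ := by
    rw [mul_pow, zpow_neg, zpow_natCast, qPar_apply, Function.comp_apply, ← hv]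
    field_simp
  rw [hval] at h2
  have h3 : (fun k => (ζ ^ (-(m : ℤ)) * (qExpansion N (qPar N ^ m * f)).coeff k * ζ ^ k) • v ^ k) =
      fun i => ζ ^ (-(m : ℤ)) * (PowerSeries.coeff i) (qExpansion N (qPar N ^ m * f)) •
        (ζ * v) ^ i := by
    funext k
    simp only [smul_eq_mul]
    rw [mul_pow]
    ring
  rw [h3]
  exact h2

/-- **Expansion of a translate**: if `f` is meromorphic at `i∞` of period `N` and `σ τ = τ + s`
(`s : ℤ`), then so is `f ∘ σ`, and its `k`-th coefficient is `exp (2 π i s / N) ^ k` times the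
`k`-th coefficient of `f`. -/
theorem expandFun_comp_shift (hf : IsMerInf N f) (hN : 0 < N)
    (hσ : ∀ τ : ℍ, (σ τ : ℂ) = τ + s) :
    IsMerInf N (f ∘ σ) ∧
    ∀ k : ℤ, (expandFun N (f ∘ σ)).coeff k = zetaOf s N ^ k * (expandFun N f).coeff k := by
  have hN' : (0 : ℝ) < N := by exact_mod_cast hN
  obtain ⟨m, hm⟩ := hf.bdd
  have hζ0 : zetaOf s N ≠ 0 := zetaOf_ne_zero s N
  have hsum := fun τ => hasSum_comp_shift hf hN hσ hm τ
  have hmer : IsMerInf N (f ∘ σ) :=
    ⟨mdiff_comp_shift hf.mdiff hσ, periodic_comp_shift hf.periodic hσ, m,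
      isBoundedAtImInfty_of_hasSum_qExpansion hN' (f := qPar N ^ m * (f ∘ σ)) hsum⟩
  have hexp := expandFun_eq_of_hasSum hN' hmer m _ hsum
  have hexp1 : expandFun N f = shiftSeries m (qExpansion N (qPar N ^ m * f)) :=
    hf.expandFun_eq hN' hm
  refine ⟨hmer, fun k => ?_⟩
  rw [hexp, hexp1, shiftSeries_coeff, shiftSeries_coeff, ofPowerSeries_coeff_int,
    ofPowerSeries_coeff_int]
  by_cases hk : 0 ≤ k + m
  · rw [if_pos hk, if_pos hk, PowerSeries.coeff_mk]
    obtain ⟨n, hn⟩ := Int.eq_ofNat_of_zero_le hk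
    have h2 : (k + m).toNat = n := by rw [hn, Int.toNat_natCast]
    rw [h2]
    have hk' : k = (n : ℤ) - m := by omega
    rw [hk', zpow_sub₀ hζ0, zpow_neg]
    simp only [zpow_natCast]
    field_simp
  · rw [if_neg hk, if_neg hk, mul_zero]

/-- The case `σ = (T • ·)`, i.e. `τ ↦ τ + 1`. -/
theorem expandFun_comp_T (hf : IsMerInf N f) (hN : 0 < N) :
    IsMerInf N (f ∘ (ModularGroup.T • ·)) ∧
    ∀ k : ℤ, (expandFun N (f ∘ (ModularGroup.T • ·))).coeff k =
      zetaOf 1 N ^ k * (expandFun N f).coeff k :=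
  expandFun_comp_shift hf hN (s := 1) (fun τ => by
    rw [UpperHalfPlane.modular_T_smul, UpperHalfPlane.coe_vadd]
    push_cast
    ring)

theorem zetaOf_one_eq (N : ℕ) : zetaOf 1 N = Complex.exp (2 * π * I / N) := by
  simp [zetaOf]

end shift

section period

variable {f : ℍ → ℂ} {N : ℕ}

theorem qPar_one_eq_pow (hN : 0 < N) (τ : ℍ) : qPar 1 τ = qPar N τ ^ N := by
  have hNc : (N : ℂ) ≠ 0 := by exact_mod_cast hN.ne'
  simp only [qPar_apply, Periodic.qParam, ofReal_one, div_one, ofReal_natCast]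
  rw [← Complex.exp_nat_mul]
  congr 1
  field_simp

/-- If `u_N ^ m * f` is bounded at `i∞` then so is `q ^ m * f`. -/
theorem IsMerInf.bdd_qPar_one (hN : 0 < N) {m : ℕ}
    (hm : IsBoundedAtImInfty (qPar N ^ m * f)) : IsBoundedAtImInfty (qPar 1 ^ m * f) := by
  have hN' : (0 : ℝ) < N := by exact_mod_cast hN
  have h1 : qPar 1 ^ m * f = qPar N ^ ((N - 1) * m) * (qPar N ^ m * f) := by
    funext τ
    simp only [Pi.mul_apply, Pi.pow_apply, qPar_one_eq_pow hN τ]
    rw [← mul_assoc, ← pow_mul, ← pow_add]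
    congr 2
    obtain ⟨n, rfl⟩ : ∃ n, N = n + 1 := ⟨N - 1, by omega⟩
    simp only [Nat.add_sub_cancel]
    ring
  rw [h1]
  exact ((isHolInf_qPar hN').pow _).bdd.mul hm

/-- A function meromorphic at `i∞` of period `N` which is `1`-periodic is meromorphic at `i∞` of
period `1`. -/
theorem IsMerInf.of_periodic_one (hN : 0 < N) (hf : IsMerInf N f)
    (hper : Periodic (f ∘ ofComplex) (1 : ℝ)) : IsMerInf 1 f := by
  obtain ⟨m, hm⟩ := hf.bdd
  exact ⟨hf.mdiff, hper, m, IsMerInf.bdd_qPar_one hN hm⟩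

/-- (R4) the hypothesis of `exists_polynomial_of_invariant_of_qParam`. -/
theorem IsMerInf.exists_bdd_mul_qParam_one (hN : 0 < N) (hf : IsMerInf N f) :
    ∃ m : ℕ, IsBoundedAtImInfty (fun τ : ℍ => f τ * Periodic.qParam 1 τ ^ m) := by
  obtain ⟨m, hm⟩ := hf.bdd
  refine ⟨m, ?_⟩
  have := IsMerInf.bdd_qPar_one hN hm
  have h1 : (fun τ : ℍ => f τ * Periodic.qParam 1 τ ^ m) = qPar 1 ^ m * f := by
    funext τ
    simp only [Pi.mul_apply, Pi.pow_apply, qPar_apply]
    ring
  rw [h1]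
  exact this

/-- Invariance under `T` gives `1`-periodicity. -/
theorem periodic_one_of_T_smul (hT : ∀ τ : ℍ, f (ModularGroup.T • τ) = f τ) :
    Periodic (f ∘ ofComplex) (1 : ℝ) := by
  intro z
  simp only [Function.comp_apply]
  by_cases hz : 0 < z.im
  · have hz' : 0 < (z + ((1 : ℝ) : ℂ)).im := by simpa using hz
    rw [ofComplex_apply_of_im_pos hz, ofComplex_apply_of_im_pos hz', ← hT ⟨z, hz⟩]
    congr 1
    ext
    rw [UpperHalfPlane.modular_T_smul, UpperHalfPlane.coe_vadd]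
    simp [add_comm]
  · have hz' : ¬ 0 < (z + ((1 : ℝ) : ℂ)).im := by simpa using hz
    rw [ofComplex_apply_of_im_nonpos (not_lt.mp hz), ofComplex_apply_of_im_nonpos (not_lt.mp hz')]

theorem IsMerInf.of_T_smul (hN : 0 < N) (hf : IsMerInf N f)
    (hT : ∀ τ : ℍ, f (ModularGroup.T • τ) = f τ) : IsMerInf 1 f :=
  hf.of_periodic_one hN (periodic_one_of_T_smul hT)

end period

section bundledH

variable (N : ℕ) [NeZero N]

theorem natCast_pos_of_neZero : (0 : ℝ) < (N : ℝ) := by
  exact_mod_cast Nat.pos_of_ne_zero (NeZero.ne N)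

/-- The subalgebra of `HolH` of functions meromorphic at `i∞` of period `N`. -/
def merInfH : Subalgebra ℂ HolH where
  carrier := {f | IsMerInf N (f : ℍ → ℂ)}
  mul_mem' hf hg := hf.mul hg
  add_mem' hf hg := hf.add (natCast_pos_of_neZero N) hg
  algebraMap_mem' c := IsMerInf.const N c

variable {N}

theorem mem_merInfH {f : HolH} : f ∈ merInfH N ↔ IsMerInf N (f : ℍ → ℂ) := Iff.rfl

variable (N)

/-- The Laurent expansion at `i∞` (parameter `u = exp (2 π i τ / N)`) as an algebra homomorphism. -/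
def expandH : merInfH N →ₐ[ℂ] LaurentSeries ℂ where
  toFun f := expandFun N ((f : HolH) : ℍ → ℂ)
  map_one' := expandFun_one (natCast_pos_of_neZero N)
  map_mul' f g := expandFun_mul (natCast_pos_of_neZero N) f.2 g.2
  map_zero' := expandFun_zero (natCast_pos_of_neZero N)
  map_add' f g := expandFun_add (natCast_pos_of_neZero N) f.2 g.2
  commutes' c := by
    show expandFun N (fun _ => c) = _
    rw [expandFun_const (natCast_pos_of_neZero N), HahnSeries.algebraMap_apply',
      ← HahnSeries.ofPowerSeries_C]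
    rfl

variable {N}

theorem algebraMap_laurentSeries_eq_C (c : ℂ) :
    algebraMap ℂ (LaurentSeries ℂ) c = HahnSeries.C c := by
  rw [HahnSeries.algebraMap_apply', ← HahnSeries.ofPowerSeries_C]
  rfl

@[simp] theorem expandH_apply (f : merInfH N) :
    expandH N f = expandFun N ((f : HolH) : ℍ → ℂ) := rfl

theorem expandH_injective : Function.Injective (expandH N) := by
  rw [injective_iff_map_eq_zero]
  intro f hf
  exact Subtype.ext (Subtype.ext ((expandFun_eq_zero_iff (natCast_pos_of_neZero N) f.2).mp hf))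

/-- `compSL T` preserves `merInfH N`. -/
theorem compSL_T_mem_merInfH {f : HolH} (hf : f ∈ merInfH N) :
    compSL ModularGroup.T f ∈ merInfH N :=
  (expandFun_comp_T hf (Nat.pos_of_ne_zero (NeZero.ne N))).1

theorem expandFun_compSL_T_coeff {f : HolH} (hf : f ∈ merInfH N) (k : ℤ) :
    (expandFun N ((compSL ModularGroup.T f : HolH) : ℍ → ℂ)).coeff k =
      zetaOf 1 N ^ k * (expandFun N (f : ℍ → ℂ)).coeff k :=
  (expandFun_comp_T hf (Nat.pos_of_ne_zero (NeZero.ne N))).2 k

end bundledH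

end Fermat.Agent.X0
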