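import Fermat.Agent.X0.Ana.QExpH

/-!
# Quotients of functions meromorphic at `i∞`

If `h` is holomorphic on `ℍ` and `h * b = a` with `a`, `b ≠ 0` meromorphic at `i∞` (period `N`),
then `h` is meromorphic at `i∞`: `merInfH N` is "saturated" in `HolH`.
-/

set_option autoImplicit false

noncomputable section

namespace Fermat.Agent.X0

open Function Complex Filter Topology
open UpperHalfPlane hiding I
open scoped Manifold Real MatrixGroups

variable {N : ℕ}

theorem cuspFunction_eq_apply (hN : 0 < N) {q : ℂ} (hq : q ≠ 0) (hq1 : ‖q‖ < 1) :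
    ∃ τ : ℍ, qPar N τ = q ∧ ∀ f : ℍ → ℂ, cuspFunction N f q = f τ := by
  have hN' : (0 : ℝ) < N := by exact_mod_cast hN
  have him : 0 < (Periodic.invQParam N q).im := Periodic.im_invQParam_pos_of_norm_lt_one hN' hq1 hq
  refine ⟨⟨Periodic.invQParam N q, him⟩, ?_, fun f => ?_⟩
  · rw [qPar_apply]
    exact Periodic.qParam_right_inv hN'.ne' hq
  · rw [UpperHalfPlane.cuspFunction, Periodic.cuspFunction_eq_of_nonzero _ _ hq, Function.comp_apply,
      ofComplex_apply_of_im_pos him]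

theorem eventually_nhdsNE_zero_norm_lt_one : ∀ᶠ q : ℂ in 𝓝[≠] 0, q ≠ 0 ∧ ‖q‖ < 1 := by
  have h1 : ∀ᶠ q : ℂ in 𝓝[≠] 0, q ≠ 0 := eventually_mem_nhdsWithin
  have h2 : ∀ᶠ q : ℂ in 𝓝[≠] 0, ‖q‖ < 1 := by
    apply nhdsWithin_le_nhds
    have : Metric.ball (0 : ℂ) 1 ∈ 𝓝 (0 : ℂ) := Metric.ball_mem_nhds 0 one_pos
    filter_upwards [this] with q hq
    simpa using hq
  exact h1.and h2

/-- The cusp function of a function meromorphic at `i∞` is meromorphic at `0`. -/
theorem IsMerInf.meromorphicAt_cuspFunction {f : ℍ → ℂ} (hN : 0 < N) (hf : IsMerInf N f) :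
    MeromorphicAt (cuspFunction N f) 0 := by
  have hN' : (0 : ℝ) < N := by exact_mod_cast hN
  obtain ⟨m, hm⟩ := hf.bdd
  have hF := (hf.isHolInf hN' hm).analyticAt hN'
  have h1 : MeromorphicAt (fun q : ℂ => (q ^ m)⁻¹ * cuspFunction N (qPar N ^ m * f) q) 0 :=
    ((MeromorphicAt.id (0 : ℂ)).pow m).inv.mul hF.meromorphicAt
  refine h1.congr ?_
  filter_upwards [eventually_nhdsNE_zero_norm_lt_one] with q ⟨hq, hq1⟩
  obtain ⟨τ, hτ, h2⟩ := cuspFunction_eq_apply hN hq hq1
  rw [h2, h2, Pi.mul_apply, Pi.pow_apply, hτ]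
  field_simp

theorem tendsto_qPar_nhdsNE (hN : 0 < N) : Tendsto (qPar N) atImInfty (𝓝[≠] 0) := by
  have hN' : (0 : ℝ) < N := by exact_mod_cast hN
  exact (Periodic.qParam_tendsto hN').comp tendsto_coe_atImInfty

/-- A nonzero function meromorphic at `i∞` has no zeros near `i∞`. -/
theorem IsMerInf.eventually_cuspFunction_ne_zero {b : ℍ → ℂ} (hN : 0 < N) (hb : IsMerInf N b)
    (hb0 : b ≠ 0) : ∀ᶠ q in 𝓝[≠] (0 : ℂ), cuspFunction N b q ≠ 0 := by
  have hN' : (0 : ℝ) < N := by exact_mod_cast hN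
  rcases (hb.meromorphicAt_cuspFunction hN).eventually_eq_zero_or_eventually_ne_zero with h | h
  · exfalso
    apply hb0
    have h1 : ∀ᶠ τ in atImInfty, b τ = 0 := by
      have := (tendsto_qPar_nhdsNE hN).eventually h
      filter_upwards [this] with τ hτ
      rw [← eq_cuspFunction τ hN'.ne' hb.periodic]
      exact hτ
    obtain ⟨A, hA⟩ := (UpperHalfPlane.atImInfty_mem _).mp h1
    have hpos : 0 < max A 0 + 1 := by positivity
    let τ₀ : ℍ := ⟨⟨0, max A 0 + 1⟩, hpos⟩
    have h2 : ordH τ₀ ⟨b, hb.mdiff⟩ = ⊤ := by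
      rw [ordH, analyticOrderAt_eq_top]
      have hopen : IsOpen {z : ℂ | max A 0 < z.im} :=
        isOpen_lt continuous_const Complex.continuous_im
      have hmem : (τ₀ : ℂ) ∈ {z : ℂ | max A 0 < z.im} := by
        show max A 0 < (τ₀ : ℂ).im
        have : (τ₀ : ℂ).im = max A 0 + 1 := rfl
        rw [this]
        linarith
      filter_upwards [hopen.mem_nhds hmem] with z hz
      have hz' : max A 0 < z.im := hz
      have hz0 : 0 < z.im := lt_of_le_of_lt (le_max_right A 0) hz'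
      have hzA : A ≤ z.im := (lt_of_le_of_lt (le_max_left A 0) hz').le
      show toFunC ⟨b, hb.mdiff⟩ z = 0
      rw [toFunC, Function.comp_apply, ofComplex_apply_of_im_pos hz0]
      exact hA ⟨z, hz0⟩ hzA
    have := (ordH_eq_top_iff τ₀ ⟨b, hb.mdiff⟩).mp h2
    exact congrArg Subtype.val this
  · exact h

/-- If the cusp function of a periodic function is meromorphic at `0`, then `u ^ M * h` is bounded
at `i∞` for some `M`. -/
theorem exists_bdd_of_meromorphicAt_cuspFunction {h : ℍ → ℂ} (hN : 0 < N)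
    (hper : Periodic (h ∘ ofComplex) (N : ℝ)) (hmer : MeromorphicAt (cuspFunction N h) 0) :
    ∃ M : ℕ, IsBoundedAtImInfty (qPar N ^ M * h) := by
  have hN' : (0 : ℝ) < N := by exact_mod_cast hN
  obtain ⟨M, hM⟩ := hmer
  refine ⟨M, ?_⟩
  set G : ℂ → ℂ := fun z => (z - 0) ^ M • cuspFunction N h z with hG
  have h1 : ∀ᶠ q in 𝓝 (0 : ℂ), ‖G q‖ < ‖G 0‖ + 1 :=
    hM.continuousAt.norm.eventually (Iio_mem_nhds (lt_add_one _))
  have h2 : ∀ᶠ τ in atImInfty, ‖G (qPar N τ)‖ < ‖G 0‖ + 1 :=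
    (qParam_tendsto_atImInfty hN').eventually h1
  rw [IsBoundedAtImInfty, BoundedAtFilter]
  refine Asymptotics.IsBigO.of_bound (‖G 0‖ + 1) ?_
  filter_upwards [h2] with τ hτ
  have h3 : G (qPar N τ) = (qPar N ^ M * h) τ := by
    simp only [hG, sub_zero, smul_eq_mul, Pi.mul_apply, Pi.pow_apply]
    rw [qPar_apply, eq_cuspFunction τ hN'.ne' hper]
  rw [h3] at hτ
  simpa using hτ.le

theorem vadd_apply_of_periodic {f : ℍ → ℂ} (hf : Periodic (f ∘ ofComplex) (N : ℝ)) (τ : ℍ) :
    f ((N : ℝ) +ᵥ τ) = f τ := by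
  have h := hf (τ : ℂ)
  simp only [Function.comp_apply] at h
  have h1 : ofComplex ((τ : ℂ) + ((N : ℝ) : ℂ)) = (N : ℝ) +ᵥ τ := by
    have him : 0 < ((τ : ℂ) + ((N : ℝ) : ℂ)).im := by simpa using τ.im_pos
    rw [ofComplex_apply_of_im_pos him]
    ext
    simp [add_comm]
  rw [h1, ofComplex_apply] at h
  exact h

theorem periodic_of_vadd_apply {f : ℍ → ℂ} (hf : ∀ τ : ℍ, f ((N : ℝ) +ᵥ τ) = f τ) :
    Periodic (f ∘ ofComplex) (N : ℝ) := by
  intro z
  simp only [Function.comp_apply]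
  by_cases hz : 0 < z.im
  · have hz' : 0 < (z + ((N : ℝ) : ℂ)).im := by simpa using hz
    rw [ofComplex_apply_of_im_pos hz, ofComplex_apply_of_im_pos hz', ← hf ⟨z, hz⟩]
    congr 1
    ext
    simp [add_comm]
  · have hz' : ¬ 0 < (z + ((N : ℝ) : ℂ)).im := by simpa using hz
    rw [ofComplex_apply_of_im_nonpos (not_lt.mp hz), ofComplex_apply_of_im_nonpos (not_lt.mp hz')]

/-- **Saturation**: a holomorphic function `h` with `h * b = a`, where `a` and `b ≠ 0` are
meromorphic at `i∞` of period `N`, is meromorphic at `i∞` of period `N`. -/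
theorem IsMerInf.of_mul_eq {h a b : ℍ → ℂ} (hN : 0 < N) (hh : MDiff h) (ha : IsMerInf N a)
    (hb : IsMerInf N b) (hb0 : b ≠ 0) (hab : h * b = a) : IsMerInf N h := by
  have hN' : (0 : ℝ) < N := by exact_mod_cast hN
  -- periodicity
  set σ : ℍ → ℍ := fun τ => (N : ℝ) +ᵥ τ with hσ
  have hσc : ∀ τ : ℍ, (σ τ : ℂ) = τ + ((N : ℕ) : ℤ) := fun τ => by
    simp [hσ, UpperHalfPlane.coe_vadd, add_comm]
  have hhσ : MDiff (h ∘ σ) := mdiff_comp_shift hh hσc
  have hper : Periodic (h ∘ ofComplex) (N : ℝ) := by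
    apply periodic_of_vadd_apply
    intro τ
    have hd : (⟨h ∘ σ - h, hhσ.sub hh⟩ : HolH) * ⟨b, hb.mdiff⟩ = 0 := by
      apply Subtype.ext
      funext τ
      show (h (σ τ) - h τ) * b τ = 0
      have h1 : h (σ τ) * b (σ τ) = a (σ τ) := congrFun hab (σ τ)
      have h2 : h τ * b τ = a τ := congrFun hab τ
      have h3 : b (σ τ) = b τ := vadd_apply_of_periodic hb.periodic τ
      have h4 : a (σ τ) = a τ := vadd_apply_of_periodic ha.periodic τ
      rw [h3, h4] at h1
      rw [sub_mul, h1, h2, sub_self]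
    rcases mul_eq_zero.mp hd with h0 | h0
    · have := congrFun (congrArg Subtype.val h0) τ
      simp only [Pi.sub_apply, Function.comp_apply] at this
      exact sub_eq_zero.mp this
    · exact absurd (congrArg Subtype.val h0) hb0
  -- meromorphy of the cusp function
  have hmer : MeromorphicAt (cuspFunction N h) 0 := by
    have h1 : MeromorphicAt (cuspFunction N a / cuspFunction N b) 0 :=
      (ha.meromorphicAt_cuspFunction hN).div (hb.meromorphicAt_cuspFunction hN)
    refine h1.congr ?_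
    filter_upwards [eventually_nhdsNE_zero_norm_lt_one,
      hb.eventually_cuspFunction_ne_zero hN hb0] with q ⟨hq, hq1⟩ hbq
    obtain ⟨τ, -, h2⟩ := cuspFunction_eq_apply hN hq hq1
    rw [Pi.div_apply, h2, h2, h2]
    rw [h2] at hbq
    rw [← hab, Pi.mul_apply, mul_div_cancel_right₀ _ hbq]
  exact ⟨hh, hper, exists_bdd_of_meromorphicAt_cuspFunction hN hper hmer⟩

/-- `merInfH N` is saturated in `HolH`: if `h * b ∈ merInfH N` with `0 ≠ b ∈ merInfH N` then
`h ∈ merInfH N`. -/
theorem mem_merInfH_of_mul_mem [NeZero N] {h b : HolH} (hb : b ∈ merInfH N) (hb0 : b ≠ 0)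
    (hab : h * b ∈ merInfH N) : h ∈ merInfH N :=
  IsMerInf.of_mul_eq (Nat.pos_of_ne_zero (NeZero.ne N)) h.2 (mem_merInfH.mp hab)
    (mem_merInfH.mp hb) (fun h0 => hb0 (Subtype.ext h0)) rfl

section order

variable {f : ℍ → ℂ}

/-- A function holomorphic at `i∞` tends to the constant coefficient of its `q`-expansion. -/
theorem IsHolInf.tendsto_coeff_zero {h : ℝ} (hh : 0 < h) (hf : IsHolInf h f) :
    Tendsto f atImInfty (𝓝 ((qExpansion h f).coeff 0)) := by
  have han := hf.analyticAt hh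
  have h0 : (cuspFunction h f ∘ fun τ : ℍ => Periodic.qParam h τ) = f :=
    funext fun τ => eq_cuspFunction τ hh.ne' hf.periodic
  have h1 := han.continuousAt.tendsto.comp (qParam_tendsto_atImInfty hh)
  rw [h0] at h1
  rw [qExpansion_coeff_zero hh han hf.periodic, ← cuspFunction_apply_zero hh han hf.periodic]
  exact h1

/-- If the Laurent expansion at `i∞` has no terms of negative degree, the function is bounded at
`i∞`. -/
theorem IsMerInf.isHolInf_of_coeff_neg (hN : 0 < N) (hf : IsMerInf N f)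
    (hneg : ∀ k : ℤ, k < 0 → (expandFun N f).coeff k = 0) : IsHolInf N f := by
  have hN' : (0 : ℝ) < N := by exact_mod_cast hN
  obtain ⟨m, hm⟩ := hf.bdd
  have hB := hf.isHolInf hN' hm
  set c : ℕ → ℂ := fun n => (qExpansion N (qPar N ^ m * f)).coeff n with hc
  have hexp := hf.expandFun_eq hN' hm
  have hc0 : ∀ n, n < m → c n = 0 := by
    intro n hn
    have h1 := hneg ((n : ℤ) - m) (by omega)
    rw [hexp, shiftSeries_coeff, sub_add_cancel, HahnSeries.ofPowerSeries_apply_coeff] at h1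
    exact h1
  refine ⟨hf.mdiff, hf.periodic, ?_⟩
  refine isBoundedAtImInfty_of_hasSum_qExpansion hN' (c := fun n => c (n + m)) fun τ => ?_
  have h1 := hasSum_qExpansion hN' hB.periodic hB.mdiff hB.bdd τ
  have h2 : HasSum (fun n => c (n + m) • Periodic.qParam N τ ^ (n + m))
      ((qPar N ^ m * f) τ - ∑ i ∈ Finset.range m, c i • Periodic.qParam N τ ^ i) :=
    (hasSum_nat_add_iff' m).mpr h1
  have h3 : ∑ i ∈ Finset.range m, c i • Periodic.qParam N τ ^ i = 0 :=
    Finset.sum_eq_zero fun i hi => by rw [hc0 i (Finset.mem_range.mp hi), zero_smul]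
  rw [h3, sub_zero] at h2
  have hu : Periodic.qParam N τ ≠ 0 := Periodic.qParam_ne_zero _
  have h4 := h2.mul_left ((Periodic.qParam N τ ^ m)⁻¹)
  have e1 : (Periodic.qParam N τ ^ m)⁻¹ * (qPar N ^ m * f) τ = f τ := by
    simp only [Pi.mul_apply, Pi.pow_apply, qPar_apply]
    field_simp
  rw [e1] at h4
  have e2 : (fun i => (Periodic.qParam N τ ^ m)⁻¹ * c (i + m) • Periodic.qParam N τ ^ (i + m)) =
      fun n => c (n + m) • Periodic.qParam N τ ^ n := by
    funext n
    simp only [smul_eq_mul, pow_add]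
    field_simp
  rw [e2] at h4
  exact h4

/-- If the Laurent expansion at `i∞` has only terms of positive degree, the function vanishes at
`i∞`. -/
theorem IsMerInf.isZeroAtImInfty_of_coeff_nonpos (hN : 0 < N) (hf : IsMerInf N f)
    (hnp : ∀ k : ℤ, k ≤ 0 → (expandFun N f).coeff k = 0) : IsZeroAtImInfty f := by
  have hN' : (0 : ℝ) < N := by exact_mod_cast hN
  have hhol := hf.isHolInf_of_coeff_neg hN fun k hk => hnp k hk.le
  have h0 := hnp 0 le_rfl
  rw [expandFun_of_isHolInf hN' hhol] at h0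
  have h1 : (qExpansion N f).coeff 0 = 0 := by
    have := HahnSeries.ofPowerSeries_apply_coeff (Γ := ℤ) (qExpansion (N : ℝ) f) 0
    rw [Nat.cast_zero] at this
    rw [← this]
    exact h0
  have h2 := hhol.tendsto_coeff_zero hN'
  rw [h1] at h2
  exact h2

end order

end Fermat.Agent.X0
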